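import Fermat.Agent.ES.Forms.Classes
import Fermat.Agent.GaloisBasic.Frobenius
import Mathlib.FieldTheory.IntermediateField.Adjoin.Basic
import Mathlib.RingTheory.Algebraic.Basic

/-!
# The action of the absolute Galois group of `ℚ` on parabolic characters
-/

set_option autoImplicit false

open UpperHalfPlane CongruenceSubgroup
open scoped MatrixGroups ModularForm

noncomputable section

namespace FermatAgent.ES

/-- The absolute Galois group of `ℚ`. -/
abbrev GQ : Type := AlgebraicClosure ℚ ≃ₐ[ℚ] AlgebraicClosure ℚ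

/-- A fixed embedding of `ℚ̄` into `ℂ`. -/
def embC : AlgebraicClosure ℚ →ₐ[ℚ] ℂ := IsAlgClosed.lift

/-- An algebraic complex number is the image of one in `ℚ̄`. -/
theorem exists_embC_eq {x : ℂ} (hx : IsAlgebraic ℚ x) : ∃ y, embC y = x := by
  classical
  have hint := hx.isIntegral
  set p := minpoly ℚ x
  have hsp : (p.map (algebraMap ℚ (AlgebraicClosure ℚ))).Splits := IsAlgClosed.splits _
  have hroots := hsp.roots_map embC.toRingHom
  rw [Polynomial.map_map, show embC.toRingHom.comp (algebraMap ℚ (AlgebraicClosure ℚ)) =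
    algebraMap ℚ ℂ from embC.comp_algebraMap] at hroots
  have hxr : x ∈ (p.map (algebraMap ℚ ℂ)).roots := by
    rw [Polynomial.mem_roots (Polynomial.map_ne_zero (minpoly.ne_zero hint)),
      Polynomial.IsRoot.def, Polynomial.eval_map, ← Polynomial.aeval_def, minpoly.aeval]
  rw [hroots, Multiset.mem_map] at hxr
  obtain ⟨y, -, hy⟩ := hxr
  exact ⟨y, hy⟩

theorem exists_autC (g : GQ) : ∃ σ : ℂ ≃+* ℂ, ∀ x, σ (embC x) = embC (g x) := by
  let : Algebra (AlgebraicClosure ℚ) ℂ := embC.toRingHom.toAlgebra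
  obtain ⟨s, hs⟩ := exists_isTranscendenceBasis (AlgebraicClosure ℚ) ℂ
  obtain ⟨σ, hσ⟩ := MF.exists_ringEquiv_extend hs (MvPolynomial.mapEquiv s g.toRingEquiv)
  refine ⟨σ, fun x => ?_⟩
  have := hσ (MvPolynomial.C x)
  simpa [RingHom.algebraMap_toAlgebra] using this

/-- An extension of `g` to `ℂ`. -/
def autC (g : GQ) : ℂ ≃+* ℂ := (exists_autC g).choose

/-- `autC g` extends `g`. -/
theorem autC_spec (g : GQ) (x : AlgebraicClosure ℚ) : autC g (embC x) = embC (g x) :=
  (exists_autC g).choose_spec x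

variable {N : ℕ} [NeZero N] {Γ : Subgroup SL(2, ℤ)}

theorem conjAut_eq_of_ext (hG : GoodLevel N Γ) (n : ℕ) [NeZero n] {g : GQ} {σ τ : ℂ ≃+* ℂ}
    (hσ : ∀ x, σ (embC x) = embC (g x)) (hτ : ∀ x, τ (embC x) = embC (g x)) :
    conjAut hG n σ = conjAut hG n τ :=
  conjAut_congr hG n fun x hx => by
    obtain ⟨y, rfl⟩ := exists_embC_eq hx
    rw [hσ, hτ]

/-- The Galois action on parabolic characters. -/
def galChar (hG : GoodLevel N Γ) (n : ℕ) [NeZero n] : GQ →* MulAut (parGroup Γ n) where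
  toFun g := conjAut hG n (autC g)
  map_one' := by
    rw [← map_one (conjAut hG n)]
    exact conjAut_eq_of_ext hG n (autC_spec 1) fun x => rfl
  map_mul' g h := by
    rw [← map_mul]
    refine conjAut_eq_of_ext hG n (autC_spec (g * h)) fun x => ?_
    show autC g (autC h (embC x)) = embC (g (h x))
    rw [autC_spec, autC_spec]

/-- Any extension of `g` computes its action on characters. -/
theorem galChar_eq (hG : GoodLevel N Γ) (n : ℕ) [NeZero n] {g : GQ} {σ : ℂ ≃+* ℂ}
    (hσ : ∀ x, σ (embC x) = embC (g x)) : galChar hG n g = conjAut hG n σ :=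
  conjAut_eq_of_ext hG n (autC_spec g) hσ

/-- The action factors through a finite extension. -/
theorem galChar_finite_level (hG : GoodLevel N Γ) (n : ℕ) [NeZero n] :
    ∃ L : IntermediateField ℚ (AlgebraicClosure ℚ), FiniteDimensional ℚ L ∧
      ∀ g : GQ, (∀ x ∈ L, g x = x) → galChar hG n g = 1 := by
  classical
  have := finite_parGroup hG n
  have := Fintype.ofFinite (parGroup Γ n)
  choose v c hv hv0 hc halg using fun φ : parGroup Γ n => exists_algebraic_form hG φ
  have : ∀ φ : parGroup Γ n, FiniteDimensional ℂ (twistSpace Γ 4 (φ : Γ →* ℂˣ)) :=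
    fun φ => finite_twistSpace_four hG φ
  set U : Submodule ℂ (ℕ → ℂ) := ⨆ φ : parGroup Γ n, LinearMap.range (serLin hG 4 φ.2.2)
  obtain ⟨I, hI⟩ := exists_separating U
  choose pre hpre using fun (φ : parGroup Γ n) (e : ℕ) => exists_embC_eq (halg φ e)
  set s : Finset (AlgebraicClosure ℚ) :=
    (Finset.univ ×ˢ I).image fun x : parGroup Γ n × ℕ => pre x.1 x.2
  refine ⟨IntermediateField.adjoin ℚ (s : Set (AlgebraicClosure ℚ)),
    IntermediateField.finiteDimensional_adjoin fun x _ => Algebra.IsIntegral.isIntegral x,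
    fun g hg => ?_⟩
  ext1 φ
  show conjChar hG (autC g) φ = φ
  obtain ⟨a, ha, hσa⟩ := exists_unit_exponent (12 * N) (autC g)
  have hv4 : IsTwist Γ ((2 * 2 : ℕ) : ℤ) (φ : Γ →* ℂˣ) (v φ) := by exact_mod_cast hv φ
  obtain ⟨φ', v', hv', hv'0, hn', hp', hser⟩ := exists_conj_twist (auxLevel12 N)
    (dvd_mul_left N 12) hG.toGalStable hG.neg_mem ha hσa (NeZero.pos n) φ.2.1 φ.2.2 hv4 (hv0 φ)
  have heq : conjChar hG (autC g) φ = ⟨φ', hn', hp'⟩ :=
    conjChar_eq hG ⟨2, v φ, v', _, hv4, hv0 φ, hv', hv'0, hc φ, hser _ (hc φ)⟩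
  rw [heq]
  have hv'4 : IsTwist Γ 4 φ' v' := by exact_mod_cast hv'
  have hmem1 : (fun e => PowerSeries.coeff e (c φ)) ∈ U := by
    refine Submodule.mem_iSup_of_mem φ ⟨⟨v φ, hv φ⟩, funext fun e => ?_⟩
    show PowerSeries.coeff e (qExpansion _ (v φ)) = _
    rw [(hasExp_twist hG φ.2.2 (hv φ)).series_unique (hc φ)]
  have hmem2 : (fun e => PowerSeries.coeff e (PowerSeries.map ((autC g : ℂ ≃+* ℂ) : ℂ →+* ℂ)
      (c φ))) ∈ U := by
    refine Submodule.mem_iSup_of_mem (⟨φ', hn', hp'⟩ : parGroup Γ n)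
      ⟨⟨v', hv'4⟩, funext fun e => ?_⟩
    show PowerSeries.coeff e (qExpansion _ v') = _
    rw [(hasExp_twist hG hp' hv').series_unique (hser _ (hc φ))]
  have hser_eq : PowerSeries.map ((autC g : ℂ ≃+* ℂ) : ℂ →+* ℂ) (c φ) = c φ := by
    ext e
    refine sub_eq_zero.mp (congrFun (hI _ (U.sub_mem hmem2 hmem1) fun i hi => ?_) e)
    simp only [Pi.sub_apply, PowerSeries.coeff_map, sub_eq_zero, RingEquiv.coe_toRingHom]
    rw [← hpre φ i, autC_spec]
    congr 1
    exact hg _ (IntermediateField.subset_adjoin ℚ _ (Finset.mem_coe.mpr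
      (Finset.mem_image.mpr ⟨(φ, i), Finset.mem_product.mpr ⟨Finset.mem_univ _, hi⟩, rfl⟩)))
  have h1 := hser _ (hc φ)
  rw [hser_eq] at h1
  have hveq : v' = v φ := h1.eq_of_series (hc φ)
  exact Subtype.ext ((hv φ).mult_unique (hveq ▸ hv'4) (hv0 φ)).symm

end FermatAgent.ES
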