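import Fermat.Agent.ES.Ring.Order
import Mathlib.Analysis.Complex.HasPrimitives
import Mathlib.Analysis.Complex.Polynomial.Basic

/-!
# Roots of holomorphic functions on `ℍ` with divisible vanishing orders
-/

set_option autoImplicit false

open Filter Topology UpperHalfPlane
open scoped Manifold

noncomputable section

namespace FermatAgent.ES

theorem exists_pow_eq_of_ne_zero {c : ℂ} {r : ℝ} {f : ℂ → ℂ}
    (hf : DifferentiableOn ℂ f (Metric.ball c r)) (hne : ∀ z ∈ Metric.ball c r, f z ≠ 0) {n : ℕ}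
    (hn : 0 < n) :
    ∃ g : ℂ → ℂ, DifferentiableOn ℂ g (Metric.ball c r) ∧ ∀ z ∈ Metric.ball c r, g z ^ n = f z := by
  rcases le_or_gt r 0 with hr | hr
  · exact ⟨0, by rw [Metric.ball_eq_empty.mpr hr]; simp,
      by rw [Metric.ball_eq_empty.mpr hr]; simp⟩
  have hd : DifferentiableOn ℂ (fun z => deriv f z / f z) (Metric.ball c r) :=
    (hf.deriv Metric.isOpen_ball).div hf hne
  obtain ⟨L, hL⟩ := hd.isExactOn_ball
  have hc0 : c ∈ Metric.ball c r := Metric.mem_ball_self hr
  set G : ℂ → ℂ := fun z => f z * Complex.exp (-L z) with hG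
  have hGd : ∀ z ∈ Metric.ball c r, HasDerivAt G 0 z := by
    intro z hz
    have h1 := (hf.differentiableAt (Metric.isOpen_ball.mem_nhds hz)).hasDerivAt
    have h2 := (hL z hz).neg.cexp
    refine (h1.mul h2).congr_deriv ?_
    have := hne z hz
    simp only [Pi.neg_apply]
    field_simp
    ring
  obtain ⟨a, ha⟩ := Metric.isOpen_ball.exists_is_const_of_deriv_eq_zero
    (convex_ball c r).isPreconnected (f := G)
    (fun z hz => (hGd z hz).differentiableAt.differentiableWithinAt)
    (fun z hz => (hGd z hz).deriv)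
  obtain ⟨b, hb⟩ := IsAlgClosed.exists_pow_nat_eq a hn
  refine ⟨fun z => b * Complex.exp (L z / n), ?_, fun z hz => ?_⟩
  · refine DifferentiableOn.const_mul (DifferentiableOn.cexp (DifferentiableOn.div_const ?_ _)) _
    exact fun z hz => (hL z hz).differentiableAt.differentiableWithinAt
  · have h := ha z hz
    rw [hG] at h
    simp only at h
    rw [mul_pow, hb, ← Complex.exp_nat_mul, mul_div_cancel₀ _ (Nat.cast_ne_zero.mpr hn.ne'), ← h,
      mul_assoc, ← Complex.exp_add, neg_add_cancel, Complex.exp_zero, mul_one]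

/-- Removing finitely many zeros of divisible order. -/
theorem exists_pow_eq_of_finite_zeros {c : ℂ} {r : ℝ} {n : ℕ} (hn : 0 < n) (S : Finset ℂ) :
    ∀ {f : ℂ → ℂ}, DifferentiableOn ℂ f (Metric.ball c r) →
      (∀ z ∈ Metric.ball c r, f z = 0 → z ∈ S) →
      (∀ z ∈ Metric.ball c r, ∃ k : ℕ, analyticOrderAt f z = (n * k : ℕ)) →
      ∃ g : ℂ → ℂ, DifferentiableOn ℂ g (Metric.ball c r) ∧
        ∀ z ∈ Metric.ball c r, g z ^ n = f z := by
  classical
  induction S using Finset.induction with
  | empty =>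
    intro f hf hz _
    exact exists_pow_eq_of_ne_zero hf (fun z hz' h => by simpa using hz z hz' h) hn
  | insert a S haS ih =>
    intro f hf hz hord
    by_cases ha : a ∈ Metric.ball c r
    swap
    · refine ih hf (fun z hz' h => ?_) hord
      rcases Finset.mem_insert.mp (hz z hz' h) with rfl | h'
      · exact absurd hz' ha
      · exact h'
    obtain ⟨k, hk⟩ := hord a ha
    have han : AnalyticAt ℂ f a := hf.analyticAt (Metric.isOpen_ball.mem_nhds ha)
    obtain ⟨F, hF, hF0, hfF⟩ := han.analyticOrderAt_eq_natCast.mp hk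
    set f1 : ℂ → ℂ := fun z => if z = a then F a else f z / (z - a) ^ (n * k) with hf1
    have hev : f1 =ᶠ[𝓝 a] F := by
      filter_upwards [hfF] with z hzF
      simp only [hf1]
      split_ifs with h
      · rw [h]
      · rw [hzF, smul_eq_mul, mul_div_cancel_left₀ _ (pow_ne_zero _ (sub_ne_zero.mpr h))]
    have hev' : ∀ z, z ≠ a → f1 =ᶠ[𝓝 z] fun w => f w / (w - a) ^ (n * k) := by
      intro z hza
      filter_upwards [isOpen_ne.mem_nhds hza] with w hw
      rw [hf1]; simp only; rw [if_neg hw]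
    have hd1 : DifferentiableOn ℂ f1 (Metric.ball c r) := by
      intro z hz'
      refine DifferentiableAt.differentiableWithinAt ?_
      by_cases hza : z = a
      · subst hza
        exact hF.differentiableAt.congr_of_eventuallyEq hev
      · refine DifferentiableAt.congr_of_eventuallyEq ?_ (hev' z hza)
        exact (hf.differentiableAt (Metric.isOpen_ball.mem_nhds hz')).div
          ((differentiableAt_id.sub_const a).pow _) (pow_ne_zero _ (sub_ne_zero.mpr hza))
    have hz1 : ∀ z ∈ Metric.ball c r, f1 z = 0 → z ∈ S := by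
      intro z hz' h
      by_cases hza : z = a
      · subst hza; simp [hf1] at h; exact absurd h hF0
      · simp only [hf1, if_neg hza, div_eq_zero_iff, pow_eq_zero_iff', sub_eq_zero, hza, false_and,
          or_false] at h
        exact (Finset.mem_insert.mp (hz z hz' h)).resolve_left hza
    have hord1 : ∀ z ∈ Metric.ball c r, ∃ j : ℕ, analyticOrderAt f1 z = (n * j : ℕ) := by
      intro z hz'
      by_cases hza : z = a
      · subst hza
        exact ⟨0, by rw [analyticOrderAt_congr hev, hF.analyticOrderAt_eq_zero.mpr hF0]; simp⟩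
      · obtain ⟨j, hj⟩ := hord z hz'
        refine ⟨j, ?_⟩
        have hfz : AnalyticAt ℂ f z := hf.analyticAt (Metric.isOpen_ball.mem_nhds hz')
        have hp : AnalyticAt ℂ (fun w : ℂ => (w - a) ^ (n * k)) z :=
          (analyticAt_id.sub analyticAt_const).pow _
        have hd1z : AnalyticAt ℂ f1 z := hd1.analyticAt (Metric.isOpen_ball.mem_nhds hz')
        have e : f =ᶠ[𝓝 z] f1 * fun w => (w - a) ^ (n * k) := by
          filter_upwards [isOpen_ne.mem_nhds hza] with w hw
          simp only [Pi.mul_apply, hf1, if_neg hw]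
          rw [div_mul_cancel₀ _ (pow_ne_zero _ (sub_ne_zero.mpr hw))]
        have h0 : analyticOrderAt (fun w : ℂ => (w - a) ^ (n * k)) z = 0 :=
          hp.analyticOrderAt_eq_zero.mpr (pow_ne_zero _ (sub_ne_zero.mpr hza))
        rw [← hj, analyticOrderAt_congr e, analyticOrderAt_mul hd1z hp, h0, add_zero]
    obtain ⟨g, hg, hgn⟩ := ih hd1 hz1 hord1
    refine ⟨fun z => (z - a) ^ k * g z, ((differentiableOn_id.sub_const a).pow k).mul hg,
      fun z hz' => ?_⟩
    rw [mul_pow, ← pow_mul, mul_comm k n, hgn z hz']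
    by_cases hza : z = a
    · subst hza
      have := hfF.self_of_nhds
      rw [this, smul_eq_mul, hf1]
      simp
    · simp only [hf1, if_neg hza]
      rw [mul_div_cancel₀ _ (pow_ne_zero _ (sub_ne_zero.mpr hza))]

/-- The `k`-th disc of an exhaustion of the half plane. -/
def exDisc (k : ℕ) : Set ℂ :=
  Metric.ball (((k : ℂ) + 2) * Complex.I) ((k : ℝ) + 2 - 1 / ((k : ℝ) + 2))

theorem closedBall_exDisc_subset (k : ℕ) :
    Metric.closedBall (((k : ℂ) + 2) * Complex.I) ((k : ℝ) + 2 - 1 / ((k : ℝ) + 2)) ⊆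
      {z : ℂ | 0 < z.im} := by
  intro z hz
  rw [Metric.mem_closedBall, dist_eq_norm] at hz
  have h := (Complex.abs_im_le_norm _).trans hz
  rw [abs_le] at h
  have hp : (0 : ℝ) < 1 / ((k : ℝ) + 2) := by positivity
  simp only [Set.mem_ofPred_eq]
  simp at h
  rw [one_div] at hp
  linarith [h.1]

theorem exDisc_subset (k : ℕ) : exDisc k ⊆ {z : ℂ | 0 < z.im} :=
  Metric.ball_subset_closedBall.trans (closedBall_exDisc_subset k)

theorem exDisc_mono {i k : ℕ} (h : i ≤ k) : exDisc i ⊆ exDisc k := by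
  refine Metric.ball_subset_ball' ?_
  rw [dist_eq_norm, ← sub_mul, norm_mul, Complex.norm_I, mul_one,
    show ((i : ℂ) + 2) - ((k : ℂ) + 2) = ((((i : ℝ) - k) : ℝ) : ℂ) by push_cast; ring,
    Complex.norm_real, Real.norm_eq_abs]
  have hik : (i : ℝ) ≤ k := by exact_mod_cast h
  rw [abs_of_nonpos (by linarith)]
  have : 1 / ((k : ℝ) + 2) ≤ 1 / ((i : ℝ) + 2) := by gcongr
  linarith

theorem exists_mem_exDisc (τ : ℍ) : ∃ k, (τ : ℂ) ∈ exDisc k := by
  obtain ⟨k, hk⟩ := exists_nat_gt ((τ.re * τ.re + τ.im * τ.im + 2) / (2 * τ.im))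
  refine ⟨k, ?_⟩
  have hy := τ.im_pos
  have hk2 : τ.re * τ.re + τ.im * τ.im + 2 < 2 * τ.im * ((k : ℝ) + 2) := by
    rw [div_lt_iff₀ (by linarith)] at hk
    nlinarith
  have hpos : (0 : ℝ) ≤ (k : ℝ) + 2 - 1 / ((k : ℝ) + 2) := by
    have h0 : (0 : ℝ) ≤ k := Nat.cast_nonneg k
    rw [sub_nonneg, div_le_iff₀ (by linarith)]
    nlinarith
  rw [exDisc, Metric.mem_ball, dist_eq_norm, Complex.norm_def,
    Real.sqrt_lt (Complex.normSq_nonneg _) hpos,
    Complex.normSq_apply]
  simp only [Complex.sub_re, Complex.sub_im, UpperHalfPlane.coe_re, UpperHalfPlane.coe_im,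
    Complex.mul_re, Complex.mul_im, Complex.add_re, Complex.add_im, Complex.natCast_re,
    Complex.natCast_im, Complex.I_re, Complex.I_im, Complex.re_ofNat, Complex.im_ofNat]
  have hc : (1 / ((k : ℝ) + 2)) * ((k : ℝ) + 2) = 1 := by field_simp
  nlinarith [sq_nonneg (1 / ((k : ℝ) + 2))]

/-- A root of a holomorphic function on `ℍ` all whose orders are divisible by `n`. -/
theorem exists_root {f : ℍ → ℂ} (hf : MDiff f) (hf0 : f ≠ 0) {n : ℕ} (hn : 0 < n)
    (hord : ∀ τ, ∃ k : ℕ, vanishOrd f τ = (n * k : ℕ)) : ∃ g : ℍ → ℂ, MDiff g ∧ g ^ n = f := by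
  classical
  set F : ℂ → ℂ := f ∘ ofComplex with hFdef
  have hd : DifferentiableOn ℂ F {z : ℂ | 0 < z.im} := UpperHalfPlane.mdifferentiable_iff.mp hf
  have hFan : AnalyticOnNhd ℂ F {z : ℂ | 0 < z.im} := hd.analyticOnNhd isOpen_upperHalfPlaneSet
  -- a base point in the first disc where `f` does not vanish
  have hI : Complex.I * 2 ∈ exDisc 0 := by
    simp only [exDisc, Metric.mem_ball]
    norm_num [mul_comm]
  obtain ⟨z0, hz0, hz0ne⟩ : ∃ z0 ∈ exDisc 0, F z0 ≠ 0 := by
    by_contra hall
    push Not at hall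
    refine hf0 (funext fun τ => ?_)
    have := hFan.eqOn_zero_of_preconnected_of_eventuallyEq_zero
      (convex_halfSpace_im_gt 0).isPreconnected (exDisc_subset 0 hI)
      (by filter_upwards [Metric.isOpen_ball.mem_nhds hI] with z hz using hall z hz) τ.im_pos
    simpa [hFdef, ofComplex_apply] using this
  obtain ⟨b, hb⟩ := IsAlgClosed.exists_pow_nat_eq (F z0) hn
  have hroot : ∀ k, ∃ g : ℂ → ℂ, DifferentiableOn ℂ g (exDisc k) ∧
      (∀ z ∈ exDisc k, g z ^ n = F z) ∧ g z0 = b := by
    intro k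
    have hz0k : z0 ∈ exDisc k := exDisc_mono (Nat.zero_le k) hz0
    have hfin : Set.Finite {z ∈ Metric.closedBall (((k : ℂ) + 2) * Complex.I)
        ((k : ℝ) + 2 - 1 / ((k : ℝ) + 2)) | F z = 0} := by
      refine IsCompact.finite ?_ ?_
      · exact (isCompact_closedBall _ _).of_isClosed_subset
          ((hd.continuousOn.mono (closedBall_exDisc_subset k)).preimage_isClosed_of_isClosed
            Metric.isClosed_closedBall isClosed_singleton) Set.inter_subset_left
      · rw [isDiscrete_iff_forall_mem_exists_isOpen]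
        intro z hz
        have hzim := closedBall_exDisc_subset k hz.1
        rcases (hFan z hzim).eventually_eq_zero_or_eventually_ne_zero with h | h
        · exfalso
          refine hz0ne ?_
          exact hFan.eqOn_zero_of_preconnected_of_eventuallyEq_zero
            (convex_halfSpace_im_gt 0).isPreconnected hzim h (exDisc_subset k hz0k)
        · rw [eventually_nhdsWithin_iff] at h
          obtain ⟨U, hU, hUo, hzU⟩ := eventually_nhds_iff.mp h
          refine ⟨U, hUo, Set.eq_singleton_iff_unique_mem.mpr ⟨⟨hzU, hz⟩, fun w hw => ?_⟩⟩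
          by_contra hne
          exact hU w hw.1 hne hw.2.2
    obtain ⟨g, hg, hgn⟩ := exists_pow_eq_of_finite_zeros (c := ((k : ℂ) + 2) * Complex.I)
      (r := (k : ℝ) + 2 - 1 / ((k : ℝ) + 2)) hn hfin.toFinset (f := F)
      (hd.mono (exDisc_subset k))
      (fun z hz h => hfin.mem_toFinset.mpr ⟨Metric.ball_subset_closedBall hz, h⟩)
      (fun z hz => by
        obtain ⟨j, hj⟩ := hord ⟨z, exDisc_subset k hz⟩
        exact ⟨j, hj⟩)
    have h0 : g z0 ≠ 0 := fun h => hz0ne (by rw [← hgn z0 hz0k, h, zero_pow hn.ne'])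
    refine ⟨fun z => b / g z0 * g z, hg.const_mul _, fun z hz => ?_, by field_simp⟩
    rw [mul_pow, div_pow, hb, hgn z0 hz0k, div_self hz0ne, one_mul, hgn z hz]
  choose g hg hgn hgb using hroot
  -- compatibility
  have hcompat : ∀ {i k}, i ≤ k → Set.EqOn (g i) (g k) (exDisc i) := by
    intro i k hik
    have hz0i : z0 ∈ exDisc i := exDisc_mono (Nat.zero_le i) hz0
    have hgk := (hg k).mono (exDisc_mono hik)
    have h0 : g k z0 ≠ 0 := fun h =>
      hz0ne (by rw [← hgn k z0 (exDisc_mono hik hz0i), h, zero_pow hn.ne'])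
    have hq : ∀ᶠ z in 𝓝 z0, g i z = g k z := by
      have hc : ContinuousAt (fun z => g i z / g k z) z0 :=
        (((hg i).continuousOn.continuousAt (Metric.isOpen_ball.mem_nhds hz0i))).div
          (hgk.continuousOn.continuousAt (Metric.isOpen_ball.mem_nhds hz0i)) h0
      have hfinset : Set.Finite {ω : ℂ | ω ^ n = 1 ∧ ω ≠ 1} :=
        ((Polynomial.nthRootsFinset n (1 : ℂ)).finite_toSet).subset
          (fun ω hω => by simp [Polynomial.mem_nthRootsFinset hn, hω.1])
      have h1 : g i z0 / g k z0 ∈ {ω : ℂ | ω ^ n = 1 ∧ ω ≠ 1}ᶜ := by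
        simp [hgb, div_self (hgb k ▸ h0)]
      filter_upwards [hc.preimage_mem_nhds (hfinset.isClosed.isOpen_compl.mem_nhds h1),
        Metric.isOpen_ball.mem_nhds hz0i,
        (hgk.continuousOn.continuousAt (Metric.isOpen_ball.mem_nhds hz0i)).eventually_ne h0]
        with z hzc hzi hzne
      simp only [Set.mem_preimage, Set.mem_compl_iff, Set.mem_ofPred_eq, not_and, not_not] at hzc
      exact (div_eq_one_iff_eq hzne).mp (hzc (by
        rw [div_pow, hgn i z hzi, hgn k z (exDisc_mono hik hzi)]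
        exact div_self (by rw [← hgn k z (exDisc_mono hik hzi)]; exact pow_ne_zero _ hzne)))
    exact ((hg i).analyticOnNhd Metric.isOpen_ball).eqOn_of_preconnected_of_eventuallyEq
      (hgk.analyticOnNhd Metric.isOpen_ball) (convex_ball _ _).isPreconnected hz0i hq
  refine ⟨fun τ => g (Nat.find (exists_mem_exDisc τ)) τ, ?_, funext fun τ => ?_⟩
  · intro τ
    rw [UpperHalfPlane.mdifferentiableAt_iff]
    set k := Nat.find (exists_mem_exDisc τ) with hk
    have hτk : (τ : ℂ) ∈ exDisc k := Nat.find_spec (exists_mem_exDisc τ)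
    refine DifferentiableAt.congr_of_eventuallyEq
      ((hg k).differentiableAt (Metric.isOpen_ball.mem_nhds hτk)) ?_
    filter_upwards [Metric.isOpen_ball.mem_nhds hτk] with z hz
    have hzim := exDisc_subset k hz
    simp only [Function.comp_apply, ofComplex_apply_of_im_pos hzim]
    exact hcompat (Nat.find_le hz) (Nat.find_spec (exists_mem_exDisc ⟨z, hzim⟩))
  · rw [Pi.pow_apply, hgn _ _ (Nat.find_spec (exists_mem_exDisc τ))]
    simp [hFdef, ofComplex_apply]

end FermatAgent.ES
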