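import Fermat.Agent.ES.Forms.TwistForm
import Fermat.Agent.ES.Forms.Root
import Fermat.Agent.ES.Ring.GalAut

/-!
# Conjugates of forms and of multipliers

Through `f ↦ f / w^j`, `w` a difference of weight two, automorphisms of `ℂ` act on forms with
trivial multiplier (`exists_conj_form`).
-/

set_option autoImplicit false

open Filter Topology UpperHalfPlane CongruenceSubgroup
open scoped MatrixGroups ModularForm Manifold

noncomputable section

namespace FermatAgent.ES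

/-- The subgroup contains `Γ(N)` and is stable under conjugation by `diag(1, a)` modulo `N`. -/
structure GalStable (N : ℕ) (Γ : Subgroup SL(2, ℤ)) : Prop where
  gamma_le : Gamma N ≤ Γ
  stable : ∀ a : ZMod N, IsUnit a → ∀ γ γ', GalRel a γ γ' → (γ ∈ Γ ↔ γ' ∈ Γ)

/-- The Galois relation descends to divisors of the level. -/
theorem GalRel.of_dvd {N M : ℕ} (h : N ∣ M) {a : ℕ} {γ γ' : SL(2, ℤ)}
    (hr : GalRel (a : ZMod M) γ γ') : GalRel (a : ZMod N) γ γ' := by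
  have e := congrArg (fun X : Matrix (Fin 2) (Fin 2) (ZMod M) =>
    X.map (ZMod.castHom h (ZMod N))) hr
  simp only [Matrix.map_mul] at e
  have hd : (!![1, 0; 0, (a : ZMod M)] : Matrix (Fin 2) (Fin 2) (ZMod M)).map
      (ZMod.castHom h (ZMod N)) = !![1, 0; 0, (a : ZMod N)] := by
    ext i j; fin_cases i <;> fin_cases j <;> simp [-ZMod.castHom_apply]
  have hm : ∀ δ : SL(2, ℤ), (modMat M δ).map (ZMod.castHom h (ZMod N)) = modMat N δ := fun δ => by
    ext i j; simp [modMat]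
  rwa [hd, hm, hm] at e

/-- A unit modulo `M` is a unit modulo each divisor of `M`. -/
theorem isUnit_natCast_of_dvd {N M : ℕ} (h : N ∣ M) {a : ℕ} (ha : IsUnit (a : ZMod M)) :
    IsUnit (a : ZMod N) := by
  simpa using ha.map (ZMod.castHom h (ZMod N))

/-- Holomorphic functions with equal `n`-th powers differ by an `n`-th root of unity. -/
theorem exists_eq_const_mul_of_pow_eq {f g : ℍ → ℂ} (hf : MDiff f) (hg : MDiff g) {n : ℕ}
    (hn : 0 < n) (hg0 : g ≠ 0) (h : f ^ n = g ^ n) :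
    ∃ c : ℂˣ, c ^ n = 1 ∧ ∀ τ, f τ = c * g τ := by
  obtain ⟨τ0, hτ0⟩ := Function.ne_iff.mp hg0
  have hpow : ∀ τ, f τ ^ n = g τ ^ n := fun τ => congrFun h τ
  have hf0 : f τ0 ≠ 0 := fun h0 => pow_ne_zero n hτ0 (by rw [← hpow τ0, h0, zero_pow hn.ne'])
  set c : ℂ := f τ0 / g τ0 with hc
  have hcn : c ^ n = 1 := by rw [hc, div_pow, hpow τ0, div_self (pow_ne_zero _ hτ0)]
  have hc0 : c ≠ 0 := div_ne_zero hf0 hτ0
  refine ⟨Units.mk0 c hc0, Units.ext hcn, fun τ => ?_⟩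
  have hfa : AnalyticOnNhd ℂ (f ∘ ofComplex) {z : ℂ | 0 < z.im} :=
    (UpperHalfPlane.mdifferentiable_iff.mp hf).analyticOnNhd isOpen_upperHalfPlaneSet
  have hga : AnalyticOnNhd ℂ (fun z => c * (g ∘ ofComplex) z) {z : ℂ | 0 < z.im} :=
    ((UpperHalfPlane.mdifferentiable_iff.mp hg).const_mul c).analyticOnNhd isOpen_upperHalfPlaneSet
  have hq : (f ∘ ofComplex) =ᶠ[𝓝 (τ0 : ℂ)] fun z => c * (g ∘ ofComplex) z := by
    have hgc : ContinuousAt (g ∘ ofComplex) (τ0 : ℂ) :=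
      ((UpperHalfPlane.mdifferentiable_iff.mp hg).continuousOn.continuousAt
        (isOpen_upperHalfPlaneSet.mem_nhds τ0.im_pos))
    have hfc : ContinuousAt (f ∘ ofComplex) (τ0 : ℂ) :=
      ((UpperHalfPlane.mdifferentiable_iff.mp hf).continuousOn.continuousAt
        (isOpen_upperHalfPlaneSet.mem_nhds τ0.im_pos))
    have hgne : (g ∘ ofComplex) (τ0 : ℂ) ≠ 0 := by simpa [ofComplex_apply] using hτ0
    have hfin : Set.Finite {ω : ℂ | ω ^ n = 1 ∧ ω ≠ c} :=
      ((Polynomial.nthRootsFinset n (1 : ℂ)).finite_toSet).subset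
        (fun ω hω => by simp [Polynomial.mem_nthRootsFinset hn, hω.1])
    have hmem : (f ∘ ofComplex) (τ0 : ℂ) / (g ∘ ofComplex) (τ0 : ℂ) ∈
        {ω : ℂ | ω ^ n = 1 ∧ ω ≠ c}ᶜ := by simp [ofComplex_apply, hc]
    filter_upwards [(hfc.div hgc hgne).preimage_mem_nhds (hfin.isClosed.isOpen_compl.mem_nhds hmem),
      isOpen_upperHalfPlaneSet.mem_nhds τ0.im_pos, hgc.eventually_ne hgne] with z hz him hne
    simp only [Set.mem_preimage, Set.mem_compl_iff, Set.mem_ofPred_eq, not_and, not_not,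
      Pi.div_apply] at hz
    have := hz (by
      simp only [Function.comp_apply] at hne ⊢
      rw [div_pow, hpow, div_self (pow_ne_zero _ hne)])
    rw [← this, div_mul_cancel₀ _ hne]
  have := hfa.eqOn_of_preconnected_of_eventuallyEq hga (convex_halfSpace_im_gt 0).isPreconnected
    τ0.im_pos hq τ.im_pos
  simpa [ofComplex_apply] using this

variable {M m : ℕ} [NeZero M] (haux : AuxLevel M m)

/-- The slash of a power of a difference of weight two is that power of the translated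
difference. -/
theorem dif_slash_pow {v w : Fin 2 → ZMod M} (j : ℕ) (γ : SL(2, ℤ)) :
    (fun τ => dif M v w τ ^ j) ∣[((2 * j : ℕ) : ℤ)] γ =
      fun τ => dif M (vmul M v γ) (vmul M w γ) τ ^ j := by
  funext τ
  have hd := UpperHalfPlane.denom_ne_zero (γ : GL (Fin 2) ℝ) τ
  rw [ModularForm.SL_slash_apply, dif_smul, mul_pow, ← pow_mul, zpow_neg, zpow_natCast]
  field_simp

/-- Slashing a product with a function of weight zero. -/
theorem slash_mul_zero_wt (y W : ℍ → ℂ) (k : ℤ) (γ : SL(2, ℤ)) :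
    (y * W) ∣[k] γ = act γ y * (W ∣[k] γ) := by
  funext τ
  simp only [ModularForm.SL_slash_apply, Pi.mul_apply, act_apply]
  ring

omit [NeZero M] in
/-- Translates of forms with parabolic multiplier on a group containing `Γ(M)` have period `M`. -/
theorem periodic_slash_twist {Γ : Subgroup SL(2, ℤ)} (hΓ : Gamma M ≤ Γ) {k : ℤ} {φ : Γ →* ℂˣ}
    (hφ : IsParChar Γ φ) {f : ℍ → ℂ} (hf : IsTwist Γ k φ f) (γ : SL(2, ℤ)) :
    Function.Periodic ((f ∣[k] γ) ∘ ofComplex) (M : ℝ) := by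
  have hmem : γ * ModularGroup.T ^ M * γ⁻¹ ∈ Γ :=
    hΓ ((Gamma_normal M).conj_mem _ (by rw [Gamma_mem, T_pow_coe]; simp) γ)
  have h1 : φ ⟨_, hmem⟩ = 1 := hφ _ (by
    show ((γ * ModularGroup.T ^ M * γ⁻¹ : SL(2, ℤ)) : Matrix (Fin 2) (Fin 2) ℤ).trace ^ 2 = 4
    rw [Matrix.SpecialLinearGroup.coe_mul, Matrix.trace_mul_comm,
      ← Matrix.SpecialLinearGroup.coe_mul, inv_mul_cancel_left, T_pow_coe]
    simp [Matrix.trace_fin_two])
  have h := congrArg (fun g : ℍ → ℂ => g ∣[k] γ) (hf.slash ⟨_, hmem⟩)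
  simp only [h1, Units.val_one, one_mul] at h
  rw [← SlashAction.slash_mul, inv_mul_cancel_right, SlashAction.slash_mul] at h
  refine Curve.periodic_comp_ofComplex_of_vadd fun τ => ?_
  have h2 := congrFun h τ
  rw [ModularForm.SL_slash_apply, ← zpow_natCast, modular_T_zpow_smul, ModularGroup.denom_apply,
    zpow_natCast, T_pow_coe] at h2
  simpa using h2

omit [NeZero M] in
/-- Translates of forms with trivial multiplier on a group containing `Γ(M)` have period `M`. -/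
theorem periodic_slash_of_trivial {Γ : Subgroup SL(2, ℤ)} (hΓ : Gamma M ≤ Γ) {k : ℤ} {f : ℍ → ℂ}
    (hf : IsTwist Γ k 1 f) (γ : SL(2, ℤ)) :
    Function.Periodic ((f ∣[k] γ) ∘ ofComplex) (M : ℝ) :=
  periodic_slash_twist hΓ (fun _ _ => rfl) hf γ

/-- The inverse of a nowhere zero modular function of level `M` is one. -/
theorem inv_mem_BSub {f : ℍ → ℂ} (hf : f ∈ BSub M) (hne : ∀ τ, f τ ≠ 0) : f⁻¹ ∈ BSub M := by
  refine ⟨fun γ hγ => by rw [act_inv, hf.1 γ hγ], fun γ => ?_⟩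
  rw [act_inv]
  refine ⟨_, (hasLExp_lexp hf γ).inv (fun τ => hne (γ • τ)) fun h0 => ?_⟩
  have h := lexp_injective hf (zero_mem _) (γ := γ)
    (h0.trans (lexp_eq (γ := γ) (f := (0 : ℍ → ℂ)) HasLExp.zero).symm)
  exact hne UpperHalfPlane.I (congrFun h _)

include haux

/-- The weight two difference used to pass from forms to functions. -/
def auxW : ℍ → ℂ := dif M (refB (M := M) haux.dvd) (refA (M := M) haux.dvd)

/-- The auxiliary form transforms with weight two under `Γ(m)`. -/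
theorem auxW_smul_of_mem {δ : SL(2, ℤ)} (hδ : δ ∈ Gamma m) (τ : ℍ) :
    auxW haux (δ • τ) = denom (δ : GL (Fin 2) ℝ) τ ^ 2 * auxW haux τ := by
  have := haux.neZero
  rw [auxW, dif_smul, refA, refB, ← embVec_vmul, ← embVec_vmul, vmul_of_mem hδ, vmul_of_mem hδ]

/-- The auxiliary form has no zeros. -/
theorem auxW_ne_zero (τ : ℍ) : auxW haux τ ≠ 0 := (adm_ref haux).dif_ne_zero τ

/-- The slash of a form is the translate of its function times the translated power of the auxiliary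
form. -/
theorem slash_eq_act_div_mul (j : ℕ) (f : ℍ → ℂ) (γ : SL(2, ℤ)) :
    f ∣[((2 * j : ℕ) : ℤ)] γ = act γ (fun τ => f τ / auxW haux τ ^ j) * fun τ =>
      dif M (vmul M (refB haux.dvd) γ) (vmul M (refA haux.dvd) γ) τ ^ j := by
  conv_lhs => rw [show f = (fun τ => f τ / auxW haux τ ^ j) * fun τ => auxW haux τ ^ j from
    funext fun τ => (div_mul_cancel₀ _ (pow_ne_zero _ (auxW_ne_zero haux τ))).symm]
  rw [slash_mul_zero_wt, auxW, dif_slash_pow]

/-- If a form is an eigenfunction of `γ ∈ Γ(M)` then so is its function, with the same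
eigenvalue. -/
theorem act_div_auxW {j : ℕ} {f : ℍ → ℂ} {γ : SL(2, ℤ)} (hγ : γ ∈ Gamma M) {c : ℂ}
    (h : f ∣[((2 * j : ℕ) : ℤ)] γ = fun τ => c * f τ) :
    act γ (fun τ => f τ / auxW haux τ ^ j) = c • fun τ => f τ / auxW haux τ ^ j := by
  funext τ
  have h' := congrFun ((slash_eq_act_div_mul haux j f γ).symm.trans h) τ
  rw [vmul_of_mem hγ, vmul_of_mem hγ] at h'
  simp only [Pi.mul_apply] at h'
  refine mul_right_cancel₀ (pow_ne_zero j (auxW_ne_zero haux τ)) (h'.trans ?_)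
  rw [Pi.smul_apply, smul_eq_mul, mul_assoc,
    div_mul_cancel₀ _ (pow_ne_zero _ (auxW_ne_zero haux τ))]

/-- Forms with trivial multiplier become elements of `BSub M`. -/
theorem form_div_mem {Γ : Subgroup SL(2, ℤ)} (hΓ : Gamma M ≤ Γ) {j : ℕ} {f : ℍ → ℂ}
    (hf : IsTwist Γ ((2 * j : ℕ) : ℤ) 1 f) : (fun τ => f τ / auxW haux τ ^ j) ∈ BSub M := by
  refine ⟨fun γ hγ => ?_, fun γ => ?_⟩
  · rw [act_div_auxW haux hγ (hf.slash ⟨γ, hΓ hγ⟩), MonoidHom.one_apply, Units.val_one, one_smul]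
  · have hexp := HasExp.exists_of_bounded (periodic_slash_of_trivial hΓ hf γ)
      (hf.mdiff.slash _ _) (hf.bdd γ)
    have hadm := (adm_ref haux).mul γ
    have hd := (hasLExp_dif (M := M) hadm.left hadm.right).pow j
    refine ⟨_, ((HasLExp.of_exp hexp).mul (hd.inv (fun τ => pow_ne_zero _ (hadm.dif_ne_zero τ))
      (pow_ne_zero _ (leadUnit_difLaurent zetaC_goodRoot_top hadm.left hadm.right hadm.ne
        hadm.ne_neg).ne_zero))).congr_fun fun τ => ?_⟩
    have h := congrFun (slash_eq_act_div_mul haux j f γ) τ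
    simp only [Pi.mul_apply, Pi.inv_apply, Pi.pow_apply] at h ⊢
    rw [h, mul_assoc, mul_inv_cancel₀ (pow_ne_zero _ (hadm.dif_ne_zero τ)), mul_one]

section Sigma

variable {σ : ℂ ≃+* ℂ} {a : ℕ}

/-- `σ`-conjugation on `BSub M`, as a ring homomorphism. -/
def conjHom (ha : IsUnit (a : ZMod M)) (hσ : σ (zetaC M) = zetaC M ^ a) : BSub M →+* BSub M where
  toFun f := ⟨(exists_conj haux (σ := (σ : ℂ →+* ℂ)) ha hσ f.2).choose,
    (exists_conj haux (σ := (σ : ℂ →+* ℂ)) ha hσ f.2).choose_spec.1⟩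
  map_one' := Subtype.ext (lexp_injective
    (exists_conj haux (σ := (σ : ℂ →+* ℂ)) ha hσ (1 : BSub M).2).choose_spec.1 (one_mem _)
    (γ := 1) (by
      rw [(exists_conj haux (σ := (σ : ℂ →+* ℂ)) ha hσ (1 : BSub M).2).choose_spec.2 1 1
        (GalRel.one _), ← expHom_apply, map_one, map_one]))
  map_zero' := Subtype.ext (lexp_injective
    (exists_conj haux (σ := (σ : ℂ →+* ℂ)) ha hσ (0 : BSub M).2).choose_spec.1 (zero_mem _)
    (γ := 1) (by
      rw [(exists_conj haux (σ := (σ : ℂ →+* ℂ)) ha hσ (0 : BSub M).2).choose_spec.2 1 1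
        (GalRel.one _), ← expHom_apply, map_zero, map_zero]))
  map_add' f g := by
    apply Subtype.ext
    set f' := (exists_conj haux (σ := (σ : ℂ →+* ℂ)) ha hσ f.2).choose_spec
    set g' := (exists_conj haux (σ := (σ : ℂ →+* ℂ)) ha hσ g.2).choose_spec
    refine lexp_injective (exists_conj haux (σ := (σ : ℂ →+* ℂ)) ha hσ (f + g).2).choose_spec.1
      (add_mem f'.1 g'.1) (γ := 1) ?_
    rw [(exists_conj haux (σ := (σ : ℂ →+* ℂ)) ha hσ (f + g).2).choose_spec.2 1 1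
      (GalRel.one _), ← expHom_apply, map_add, map_add, expHom_apply, expHom_apply,
      ← f'.2 1 1 (GalRel.one _), ← g'.2 1 1 (GalRel.one _)]
    exact ((expHom (M := M) 1).map_add ⟨_, f'.1⟩ ⟨_, g'.1⟩).symm
  map_mul' f g := by
    apply Subtype.ext
    set f' := (exists_conj haux (σ := (σ : ℂ →+* ℂ)) ha hσ f.2).choose_spec
    set g' := (exists_conj haux (σ := (σ : ℂ →+* ℂ)) ha hσ g.2).choose_spec
    refine lexp_injective (exists_conj haux (σ := (σ : ℂ →+* ℂ)) ha hσ (f * g).2).choose_spec.1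
      (mul_mem f'.1 g'.1) (γ := 1) ?_
    rw [(exists_conj haux (σ := (σ : ℂ →+* ℂ)) ha hσ (f * g).2).choose_spec.2 1 1
      (GalRel.one _), ← expHom_apply, map_mul, map_mul, expHom_apply, expHom_apply,
      ← f'.2 1 1 (GalRel.one _), ← g'.2 1 1 (GalRel.one _)]
    exact ((expHom (M := M) 1).map_mul ⟨_, f'.1⟩ ⟨_, g'.1⟩).symm

variable (ha : IsUnit (a : ZMod M)) (hσ : σ (zetaC M) = zetaC M ^ a)

/-- The expansions of a conjugate function are the conjugate expansions at related cusps. -/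
theorem lexp_conjHom (f : BSub M) {γ γ' : SL(2, ℤ)} (h : GalRel (a : ZMod M) γ γ') :
    lexp M γ' (conjHom haux ha hσ f : ℍ → ℂ) = mapSer (σ : ℂ →+* ℂ) (lexp M γ (f : ℍ → ℂ)) :=
  (exists_conj haux (σ := (σ : ℂ →+* ℂ)) ha hσ f.2).choose_spec.2 γ γ' h

/-- Conjugation acts on constants by the automorphism. -/
theorem conjHom_const (c : ℂ) :
    (conjHom haux ha hσ ⟨fun _ => c, (BSub M).algebraMap_mem c⟩ : ℍ → ℂ) = fun _ => σ c := by
  refine lexp_injective (conjHom haux ha hσ _).2 ((BSub M).algebraMap_mem _) (γ := 1) ?_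
  rw [lexp_conjHom haux ha hσ _ (GalRel.one _)]
  change mapSer _ (lexp M 1 (fun _ : ℍ => c)) = lexp M 1 (fun _ : ℍ => σ c)
  rw [lexp_eq (γ := 1) (HasLExp.const c), lexp_eq (γ := 1) (HasLExp.const (σ c)), mapSer_C]
  rfl

/-- The conjugate of a nonzero function is nonzero. -/
theorem conjHom_ne_zero {f : BSub M} (hf : (f : ℍ → ℂ) ≠ 0) :
    (conjHom haux ha hσ f : ℍ → ℂ) ≠ 0 := by
  intro h
  refine hf (lexp_injective f.2 (zero_mem _) (γ := 1) ?_)
  rw [lexp_eq (γ := 1) (f := (0 : ℍ → ℂ)) HasLExp.zero]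
  have h1 := lexp_conjHom haux ha hσ f (GalRel.one _)
  rw [h, lexp_eq (γ := 1) (f := (0 : ℍ → ℂ)) HasLExp.zero] at h1
  ext n
  have h2 := congrArg (fun s : LaurentSeries ℂ => s.coeff n) h1
  simp only [HahnSeries.coeff_zero, coeff_mapSer] at h2
  exact (map_eq_zero _).mp h2.symm

/-- Divisibility of all vanishing orders passes to conjugates. -/
theorem dvd_vanishOrd_conjHom {n : ℕ} {y : BSub M} (hy0 : (y : ℍ → ℂ) ≠ 0)
    (hord : ∀ τ, ∃ k : ℕ, vanishOrd (y : ℍ → ℂ) τ = (n * k : ℕ)) (τ' : ℍ) :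
    ∃ k : ℕ, vanishOrd (conjHom haux ha hσ y : ℍ → ℂ) τ' = (n * k : ℕ) := by
  set C := conjHom haux ha hσ with hC
  let ψ : BRing M (⊤ : Subring ℂ) →+* ℂ :=
    ((σ.symm : ℂ →+* ℂ).comp ((Pi.evalRingHom (fun _ : ℍ => ℂ) τ').comp
      ((BSub M).val.toRingHom.comp C))).comp
      (Subring.inclusion (T := (BSub M).toSubring) (fun f hf => hf.1))
  have hψdef : ∀ f : BRing M (⊤ : Subring ℂ), ψ f =
      σ.symm ((C ⟨f, f.2.1⟩ : ℍ → ℂ) τ') := fun f => rfl
  have hψconst : ∀ c : ℂ, ψ ⟨fun _ => c, const_mem_BRing trivial⟩ = c := fun c => by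
    rw [hψdef]
    change σ.symm ((C ⟨fun _ => c, (BSub M).algebraMap_mem c⟩ : ℍ → ℂ) τ') = c
    rw [hC, conjHom_const]
    exact σ.symm_apply_apply c
  have htB := polRing_le_BRing haux (A := (⊤ : Subring ℂ)) zetaC_goodRoot_top
    (haupt_mem_polRing haux _)
  set a0 : ℂ := ψ ⟨_, htB⟩ with ha0
  -- `a0` is a value of `t`
  have ha0ne : cuspPoly haux a0 ≠ 0 := by
    set s : BRing M (⊤ : Subring ℂ) :=
      ⟨_, htB⟩ * (⟨_, htB⟩ - 1) *
        (⟨_, htB⟩ - ⟨_, const_mem_BRing (a := hauptRoot haux)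
          (show hauptRoot haux ∈ (⊤ : Subring ℂ) from trivial)⟩)
    have hs : ∀ τ, (s : ℍ → ℂ) τ = cuspPoly haux (haupt haux.dvd τ) := fun τ => by
      simp [s, cuspPoly]
    have hne : ∀ τ, (s : ℍ → ℂ) τ ≠ 0 := fun τ => by rw [hs]; exact cuspPoly_haupt_ne_zero haux τ
    set si : BRing M (⊤ : Subring ℂ) := ⟨(s : ℍ → ℂ)⁻¹, mem_BRing_top.mpr (inv_mem_BSub s.2.1 hne)⟩
    have hmul : s * si = 1 := Subtype.ext (funext fun τ => by
      show (s : ℍ → ℂ) τ * ((s : ℍ → ℂ) τ)⁻¹ = 1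
      rw [mul_inv_cancel₀ (hne τ)])
    have h := congrArg ψ hmul
    rw [map_mul, map_one] at h
    have hps : ψ s = cuspPoly haux a0 := by
      simp only [s, map_mul, map_sub, map_one, hψconst, cuspPoly, ha0]
    rw [← hps]
    exact left_ne_zero_of_mul_eq_one h
  obtain ⟨τ0, hτ0⟩ := exists_haupt_eq haux ha0ne
  obtain ⟨g, hg⟩ := exists_point_of_hom haux zetaC_goodRoot_top (goodPoint_top haux τ0) ψ
    (by rw [hψconst]; exact ha0.symm.trans hτ0.symm)
  set τ1 := orbPt M m τ0 g with hτ1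
  have hev : ∀ f : BSub M, σ.symm ((C f : ℍ → ℂ) τ') = (f : ℍ → ℂ) τ1 := fun f => by
    have := hg ⟨f, mem_BRing_top.mpr f.2⟩
    rw [hψdef, hψconst] at this
    exact this
  obtain ⟨j, e, x, he, hx, he0, hx0, heq, hjord⟩ := exists_local_form haux y.2 hy0 τ1
  obtain ⟨k, hk⟩ := hord τ1
  have hjk : j = n * k := by rw [hjord] at hk; exact_mod_cast hk
  have hPB : hauptSub haux (haupt haux.dvd τ1) ∈ BSub M :=
    sub_mem (polFun_mem_BSub haux 1 (one_le haux)) ((BSub M).algebraMap_mem _)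
  set P' : BSub M := C ⟨_, hPB⟩
  set e' : BSub M := C ⟨e, he⟩
  set x' : BSub M := C ⟨x, hx⟩
  have hrel : e' ^ j * C y = P' ^ j * x' := by
    have h : (⟨e, he⟩ : BSub M) ^ j * y = (⟨_, hPB⟩ : BSub M) ^ j * ⟨x, hx⟩ := Subtype.ext heq
    have h2 := congrArg C h
    rw [map_mul, map_mul, map_pow, map_pow] at h2
    exact h2
  have hnz : ∀ {f : ℍ → ℂ} (hf : f ∈ BSub M), f τ1 ≠ 0 → (C ⟨f, hf⟩ : ℍ → ℂ) τ' ≠ 0 :=
    fun hf hne h0 => hne ((hev ⟨_, hf⟩).symm.trans (by rw [h0, map_zero]))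
  have hmd := fun (f : BSub M) => mdifferentiable_of_mem (M := M) f.2
  have hrel' : (e' : ℍ → ℂ) ^ j * (C y : ℍ → ℂ) = (P' : ℍ → ℂ) ^ j * (x' : ℍ → ℂ) := by
    simpa using congrArg Subtype.val hrel
  have h1 := congrArg (fun f => vanishOrd f τ') hrel'
  have hpowd : ∀ (f : BSub M) (i : ℕ), MDiff ((f : ℍ → ℂ) ^ i) := fun f i =>
    (SubmonoidClass.coe_pow f i) ▸ hmd (f ^ i)
  simp only [vanishOrd_mul (hpowd e' j) (hmd _), vanishOrd_mul (hpowd P' j) (hmd _),
    vanishOrd_pow (hmd _), (vanishOrd_eq_zero (hmd e')).mpr (hnz he he0),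
    (vanishOrd_eq_zero (hmd x')).mpr (hnz hx hx0), smul_zero, zero_add, add_zero] at h1
  have hP0 : (P' : ℍ → ℂ) ≠ 0 := conjHom_ne_zero haux ha hσ (f := ⟨_, hPB⟩) fun h => by
    have := vanishOrd_hauptSub haux τ1
    change vanishOrd (hauptSub haux _) τ1 = 1 at this
    rw [show hauptSub haux (haupt haux.dvd τ1) = 0 from h,
      show vanishOrd (0 : ℍ → ℂ) τ1 = ⊤ from analyticOrderAt_eq_top.mpr
        (Eventually.of_forall fun z => rfl)] at this
    exact ENat.top_ne_one this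
  obtain ⟨i, hi⟩ := ENat.ne_top_iff_exists.mp (vanishOrd_ne_top (hmd P') hP0 τ')
  refine ⟨k * i, ?_⟩
  rw [h1, ← hi, hjk, nsmul_eq_mul]
  push_cast
  ring

/-- The conjugate of a form with trivial multiplier. -/
theorem exists_conj_form {N : ℕ} (hNM : N ∣ M) {Γ : Subgroup SL(2, ℤ)} (hG : GalStable N Γ)
    (ha : IsUnit (a : ZMod M)) (hσ : σ (zetaC M) = zetaC M ^ a) {j : ℕ} {f : ℍ → ℂ}
    (hf : IsTwist Γ ((2 * j : ℕ) : ℤ) 1 f) :
    ∃ f' : ℍ → ℂ, IsTwist Γ ((2 * j : ℕ) : ℤ) 1 f' ∧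
      (∀ γ γ', GalRel (a : ZMod M) γ γ' → ∀ s, HasLExp M (f ∣[((2 * j : ℕ) : ℤ)] γ) s →
        HasLExp M (f' ∣[((2 * j : ℕ) : ℤ)] γ') (mapSer (σ : ℂ →+* ℂ) s)) ∧
      (f ≠ 0 → ∀ n : ℕ, (∀ τ, ∃ k : ℕ, vanishOrd f τ = (n * k : ℕ)) →
        f' ≠ 0 ∧ ∀ τ, ∃ k : ℕ, vanishOrd f' τ = (n * k : ℕ)) := by
  have hΓ : Gamma M ≤ Γ := (gamma_le_of_dvd hNM).trans hG.gamma_le
  set y : BSub M := ⟨_, form_div_mem haux hΓ hf⟩
  set B := refB (M := M) haux.dvd
  set A := refA (M := M) haux.dvd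
  set s' := fun τ => dif M (scaleVec (a : ZMod M) B) (scaleVec (a : ZMod M) A) τ with hs'
  set f' : ℍ → ℂ := (conjHom haux ha hσ y : ℍ → ℂ) * fun τ => s' τ ^ j with hf'
  have hfy : f = (y : ℍ → ℂ) * fun τ => auxW haux τ ^ j := by
    funext τ
    simp only [y, Pi.mul_apply, div_mul_cancel₀ _ (pow_ne_zero _ (auxW_ne_zero haux τ))]
  -- expansions
  have hexp : ∀ γ γ', GalRel (a : ZMod M) γ γ' → ∀ s, HasLExp M (f ∣[((2 * j : ℕ) : ℤ)] γ) s →
      HasLExp M (f' ∣[((2 * j : ℕ) : ℤ)] γ') (mapSer (σ : ℂ →+* ℂ) s) := by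
    intro γ γ' hr s hs
    have hadm := (adm_ref haux).mul γ
    have e1 : f ∣[((2 * j : ℕ) : ℤ)] γ =
        act γ (y : ℍ → ℂ) * (dif M (vmul M B γ) (vmul M A γ)) ^ j :=
      slash_eq_act_div_mul haux j f γ
    have e2 : f' ∣[((2 * j : ℕ) : ℤ)] γ' = act γ' (conjHom haux ha hσ y : ℍ → ℂ) *
        (dif M (scaleVec (a : ZMod M) (vmul M B γ)) (scaleVec (a : ZMod M) (vmul M A γ))) ^ j := by
      rw [hf', slash_mul_zero_wt, hs', dif_slash_pow, hr.vmul_scaleVec, hr.vmul_scaleVec]; rfl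
    have hs1 := hs.series_unique (M := M) (f := f ∣[((2 * j : ℕ) : ℤ)] γ) (e1 ▸
      ((hasLExp_lexp y.2 γ).mul ((hasLExp_dif hadm.left hadm.right).pow j)))
    rw [e2]
    have h2 := (hasLExp_lexp (conjHom haux ha hσ y).2 γ').mul
      ((hasLExp_dif (M := M) (scaleVec_ne_zero ha hadm.left)
        (scaleVec_ne_zero ha hadm.right)).pow j)
    rw [lexp_conjHom haux ha hσ y hr] at h2
    have e3 : mapSer (σ : ℂ →+* ℂ) (difLaurent M (zetaC M) (vmul M B γ) (vmul M A γ)) =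
        difLaurent M (zetaC M) (scaleVec (a : ZMod M) (vmul M B γ))
          (scaleVec (a : ZMod M) (vmul M A γ)) := by
      rw [mapSer_difLaurent, RingEquiv.coe_toRingHom, hσ]
      simp only [difLaurent, difSeries,
        divCoeff_pow_root (zetaC_isPrimitiveRoot M).pow_eq_one a]
    rw [hs1, map_mul, map_pow, e3]
    exact h2
  have hbser : ∀ γ, HasLExp M (f ∣[((2 * j : ℕ) : ℤ)] γ) (HahnSeries.ofPowerSeries ℤ ℂ
      (qExpansion (M : ℝ) (f ∣[((2 * j : ℕ) : ℤ)] γ))) := fun γ => HasLExp.of_exp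
    (HasExp.exists_of_bounded (periodic_slash_of_trivial hΓ hf γ) (hf.mdiff.slash _ _) (hf.bdd γ))
  have hmd : MDiff f' := by
    have hadm := (adm_ref haux).scale ha
    exact ((hasLExp_lexp (conjHom haux ha hσ y).2 1).mul
      ((hasLExp_dif (M := M) hadm.left hadm.right).pow j)).congr_fun
      (fun τ => by simp [hf', hs', act_one, B, A]) |>.mdifferentiable
  refine ⟨f', ⟨hmd, fun γ' => ?_, fun γ' => ?_⟩, hexp, ?_⟩
  · simp only [MonoidHom.one_apply, Units.val_one, one_mul]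
    obtain ⟨γ, hr⟩ := GalRel.exists_left ha (γ' : SL(2, ℤ))
    have hmem : γ ∈ Γ := (hG.stable _ (isUnit_natCast_of_dvd hNM ha) γ γ' (hr.of_dvd hNM)).mpr γ'.2
    have h1 := hexp γ γ' hr _ (hbser γ)
    have h0 := hexp 1 1 (GalRel.one _) _ (hbser 1)
    rw [hf.slash ⟨γ, hmem⟩] at h1
    simp only [MonoidHom.one_apply, Units.val_one, one_mul, SlashAction.slash_one] at h1 h0
    exact h1.eq_of_series h0
  · obtain ⟨γ, hr⟩ := GalRel.exists_left ha γ'
    refine isBounded_of_nonneg (hexp γ γ' hr _ (hbser γ)) fun k hk => ?_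
    rw [coeff_mapSer, HahnSeries.ofPowerSeries_apply, HahnSeries.embDomain_of_notMem_range,
      map_zero]
    rintro ⟨i, hi⟩
    simp at hi
    omega
  · intro hf0 n hord
    have hy0 : (y : ℍ → ℂ) ≠ 0 := fun h => hf0 (by rw [hfy, h, zero_mul])
    have hadm := (adm_ref haux).scale ha
    have hsne : ∀ τ, s' τ ^ j ≠ 0 := fun τ => pow_ne_zero _ (hadm.dif_ne_zero τ)
    have hWne : ∀ τ, auxW haux τ ^ j ≠ 0 := fun τ => pow_ne_zero _ (auxW_ne_zero haux τ)
    have hdm : ∀ {v w : Fin 2 → ZMod M}, Adm M v w → MDiff (fun τ => dif M v w τ ^ j) :=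
      fun h => ((hasLExp_dif h.left h.right).pow j).mdifferentiable
    have hmy := mdifferentiable_of_mem (M := M) y.2
    have hyord : ∀ τ, ∃ k : ℕ, vanishOrd (y : ℍ → ℂ) τ = (n * k : ℕ) := fun τ => by
      obtain ⟨k, hk⟩ := hord τ
      refine ⟨k, ?_⟩
      have hWd : MDiff fun τ => auxW haux τ ^ j := hdm (adm_ref haux)
      rwa [hfy, vanishOrd_mul hmy hWd, (vanishOrd_eq_zero hWd).mpr (hWne τ), add_zero] at hk
    refine ⟨fun h => ?_, fun τ => ?_⟩
    · refine conjHom_ne_zero haux ha hσ hy0 (funext fun τ => ?_)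
      exact (mul_eq_zero.mp (congrFun h τ)).resolve_right (hsne τ)
    · obtain ⟨k, hk⟩ := dvd_vanishOrd_conjHom haux ha hσ hy0 hyord τ
      refine ⟨k, ?_⟩
      rw [hf', vanishOrd_mul (mdifferentiable_of_mem (M := M) (conjHom haux ha hσ y).2) (hdm hadm),
        (vanishOrd_eq_zero (hdm hadm)).mpr (hsne τ), add_zero, hk]

end Sigma

end FermatAgent.ES
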