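import Fermat.Agent.ES.Forms.PowExp

/-!
# Automorphisms of `ℂ` acting on multipliers

A form `v` of even weight with a parabolic multiplier `φ` of exponent `n` has a conjugate under an
automorphism `σ` of `ℂ`: a form whose series is the conjugate series, with a parabolic multiplier of
exponent `n` (`exists_conj_twist`), and this multiplier is unique (`conj_twist_unique`).
The conjugate is a root of the conjugate of the form `v ^ n` with trivial multiplier, so its series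
at the other cusps are determined up to roots of unity (`exists_exp_slash_conj`); parabolicity uses
that elements of trace `± 2` are conjugate to `± T ^ k` (`exists_conj_T_of_trace`).
-/

set_option autoImplicit false

open Filter Topology UpperHalfPlane CongruenceSubgroup
open scoped MatrixGroups ModularForm Manifold

noncomputable section

namespace FermatAgent.ES

/-- An element of trace `±2` is conjugate to `± T^h`. -/
theorem exists_conj_T_of_trace {γ : SL(2, ℤ)}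
    (h : ((γ : Matrix (Fin 2) (Fin 2) ℤ)).trace ^ 2 = 4) :
    ∃ (δ : SL(2, ℤ)) (k : ℤ), γ = δ * ModularGroup.T ^ k * δ⁻¹ ∨
      -γ = δ * ModularGroup.T ^ k * δ⁻¹ := by
  suffices H : ∀ g : SL(2, ℤ), (g : Matrix (Fin 2) (Fin 2) ℤ).trace = 2 →
      ∃ (δ : SL(2, ℤ)) (k : ℤ), g = δ * ModularGroup.T ^ k * δ⁻¹ by
    rcases eq_or_eq_neg_of_sq_eq_sq _ (2 : ℤ) (h.trans (by norm_num)) with h2 | h2
    · obtain ⟨δ, k, e⟩ := H γ h2; exact ⟨δ, k, Or.inl e⟩
    · obtain ⟨δ, k, e⟩ := H (-γ) (by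
        rw [Matrix.SpecialLinearGroup.coe_neg, Matrix.trace_neg, h2]; norm_num)
      exact ⟨δ, k, Or.inr e⟩
  intro g htr
  rw [Matrix.trace_fin_two] at htr
  have hdet := g.det_coe
  rw [Matrix.det_fin_two] at hdet
  by_cases hc : g 1 0 = 0
  · have h00 : g 0 0 = 1 := by
      rw [hc, mul_zero, sub_zero, show g 1 1 = 2 - g 0 0 by linarith] at hdet
      have : (g 0 0 - 1) ^ 2 = 0 := by linear_combination -hdet
      have := pow_eq_zero_iff (two_ne_zero) |>.mp this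
      linarith
    refine ⟨1, g 0 1, ?_⟩
    simp only [one_mul, inv_one, mul_one]
    ext i j
    fin_cases i <;> fin_cases j <;> simp [ModularGroup.coe_T_zpow, h00, hc]
    linarith
  · have hd0 : 0 < Int.gcd (g 0 0 - 1) (g 1 0) := Int.gcd_pos_of_ne_zero_right _ hc
    obtain ⟨p, q, hpq, hp, hq⟩ := Int.exists_gcd_one hd0
    obtain ⟨δ, hδ0, hδ1⟩ := (Int.isCoprime_iff_gcd_eq_one.mpr hpq).exists_SL2_col 0
    set d : ℤ := (Int.gcd (g 0 0 - 1) (g 1 0) : ℤ) with hd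
    have hdne : d ≠ 0 := by rw [hd]; exact_mod_cast hd0.ne'
    have hkey : (g 0 0 - 1) * (g 0 0 - 1) + g 0 1 * g 1 0 = 0 := by
      rw [show g 1 1 = 2 - g 0 0 by linarith] at hdet
      linear_combination -hdet
    have f0 : g 0 0 * p + g 0 1 * q = p := by
      refine mul_right_cancel₀ hdne ?_
      linear_combination (-(g 0 0 - 1)) * hp + (-g 0 1) * hq + hkey
    have f1 : g 1 0 * p + g 1 1 * q = q := by
      refine mul_right_cancel₀ hdne ?_
      rw [show g 1 1 = 2 - g 0 0 by linarith]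
      linear_combination (-g 1 0) * hp + (-(1 - g 0 0)) * hq
    set X := δ⁻¹ * g * δ with hX
    have hXe : ∀ i j, X i j = ∑ a, ∑ b, δ⁻¹ i a * g a b * δ b j := fun i j => by
      rw [hX, Matrix.SpecialLinearGroup.coe_mul, Matrix.SpecialLinearGroup.coe_mul,
        Matrix.mul_apply, Finset.sum_comm]
      simp [Matrix.mul_apply, Fin.sum_univ_two]
      ring
    have hδdet := δ.det_coe
    rw [Matrix.det_fin_two, hδ0, hδ1] at hδdet
    have h00 : X 0 0 = 1 := by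
      rw [hXe]
      simp only [Fin.sum_univ_two, Matrix.SpecialLinearGroup.coe_inv, Matrix.adjugate_fin_two,
        Matrix.of_apply, Matrix.cons_val', Matrix.cons_val_zero, Matrix.cons_val_one,
        Matrix.cons_val_fin_one, Matrix.empty_val', hδ0, hδ1]
      linear_combination δ 1 1 * f0 + (-δ 0 1) * f1 + hδdet
    have h10 : X 1 0 = 0 := by
      rw [hXe]
      simp only [Fin.sum_univ_two, Matrix.SpecialLinearGroup.coe_inv, Matrix.adjugate_fin_two,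
        Matrix.of_apply, Matrix.cons_val', Matrix.cons_val_zero, Matrix.cons_val_one,
        Matrix.cons_val_fin_one, Matrix.empty_val', hδ0, hδ1]
      linear_combination (-q) * f0 + p * f1
    have hXdet := X.det_coe
    rw [Matrix.det_fin_two, h00, h10, one_mul, mul_zero, sub_zero] at hXdet
    refine ⟨δ, X 0 1, ?_⟩
    have e : X = ModularGroup.T ^ (X 0 1) := by
      ext i j
      fin_cases i <;> fin_cases j <;> simp [ModularGroup.coe_T_zpow, h00, h10, hXdet]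
    rw [← e, hX]
    group

/-- The slash by `T ^ h` is translation by `h`. -/
theorem slash_T_zpow (f : ℍ → ℂ) (k : ℤ) (h : ℤ) :
    f ∣[k] (ModularGroup.T ^ h) = fun τ => f ((h : ℝ) +ᵥ τ) := by
  funext τ
  rw [ModularForm.SL_slash_apply, modular_T_zpow_smul]
  have hd : UpperHalfPlane.denom ((ModularGroup.T ^ h : SL(2, ℤ)) : GL (Fin 2) ℝ) (τ : ℂ) = 1 := by
    rw [ModularGroup.denom_apply]; simp [ModularGroup.coe_T_zpow]
  rw [hd, one_zpow, mul_one]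

/-- In even weight the slash ignores signs. -/
theorem slash_even_neg (f : ℍ → ℂ) (i : ℕ) (γ : SL(2, ℤ)) :
    f ∣[((2 * i : ℕ) : ℤ)] (-γ) = f ∣[((2 * i : ℕ) : ℤ)] γ := by
  funext τ
  have hs : (-γ) • τ = γ • τ := by
    exact UpperHalfPlane.ext (by
      rw [UpperHalfPlane.coe_specialLinearGroup_apply, UpperHalfPlane.coe_specialLinearGroup_apply]
      simp [Matrix.SpecialLinearGroup.coe_neg]
      rw [show -(((γ 0 0 : ℤ) : ℂ) * τ) + -((γ 0 1 : ℤ) : ℂ) =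
        -(((γ 0 0 : ℤ) : ℂ) * τ + (γ 0 1 : ℤ))
        by ring, show -(((γ 1 0 : ℤ) : ℂ) * τ) + -((γ 1 1 : ℤ) : ℂ) =
        -(((γ 1 0 : ℤ) : ℂ) * τ + (γ 1 1 : ℤ)) by ring, neg_div_neg_eq])
  rw [ModularForm.SL_slash_apply, ModularForm.SL_slash_apply, hs]
  congr 1
  rw [ModularGroup.denom_apply, ModularGroup.denom_apply]
  simp only [Matrix.SpecialLinearGroup.coe_neg, Matrix.neg_apply, Int.cast_neg]
  rw [show -((γ 1 0 : ℤ) : ℂ) * τ + -((γ 1 1 : ℤ) : ℂ) = -(((γ 1 0 : ℤ) : ℂ) * τ + (γ 1 1 : ℤ))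
    by ring, zpow_neg, zpow_neg, zpow_natCast, zpow_natCast, pow_mul, pow_mul, neg_sq]

/-- Slashing commutes with powers. -/
theorem slash_pow (f : ℍ → ℂ) (k : ℤ) (n : ℕ) (γ : SL(2, ℤ)) :
    (f ^ n) ∣[(n : ℤ) * k] γ = (f ∣[k] γ) ^ n := by
  funext τ
  rw [ModularForm.SL_slash_apply, Pi.pow_apply, Pi.pow_apply, ModularForm.SL_slash_apply, mul_pow,
    ← zpow_natCast (UpperHalfPlane.denom _ _ ^ (-k)), ← zpow_mul]
  congr 2
  ring

/-- The slash of a nonzero function is nonzero. -/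
theorem slash_ne_zero {G : Type*} [Group G] [SlashAction ℤ G (ℍ → ℂ)] (g : G) {k : ℤ} {v : ℍ → ℂ}
    (hv : v ≠ 0) : v ∣[k] g ≠ 0 := fun h => hv (by
  have h' := congrArg (fun f : ℍ → ℂ => f ∣[k] g⁻¹) h
  rwa [← SlashAction.slash_mul, mul_inv_cancel, SlashAction.slash_one, SlashAction.zero_slash]
    at h')

variable {M : ℕ} [NeZero M]

omit [NeZero M] in
/-- A translate by an integer has the twisted expansion. -/
theorem HasExp.translate {f : ℍ → ℂ} {c : PowerSeries ℂ} (hf : HasExp M f c) (h : ℤ) :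
    HasExp M (fun τ => f ((h : ℝ) +ᵥ τ))
      (PowerSeries.mk fun e => PowerSeries.coeff e c * (zetaC M ^ h) ^ e) := fun τ => by
  refine (hf ((h : ℝ) +ᵥ τ)).congr_fun fun e => ?_
  rw [PowerSeries.coeff_mk, qm_vadd_int, mul_pow]
  ring

/-- All slashes of a form with parabolic multiplier have expansions of width `M`. -/
theorem hasExp_slash_twist {Γ : Subgroup SL(2, ℤ)} (hΓ : Gamma M ≤ Γ) {k : ℤ} {φ : Γ →* ℂˣ}
    (hφ : IsParChar Γ φ) {f : ℍ → ℂ} (hf : IsTwist Γ k φ f) (γ : SL(2, ℤ)) :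
    HasExp M (f ∣[k] γ) (qExpansion (M : ℝ) (f ∣[k] γ)) :=
  HasExp.exists_of_bounded (periodic_slash_twist hΓ hφ hf γ) (hf.mdiff.slash _ _) (hf.bdd γ)

/-- Coefficient maps commute with the inclusion of power series. -/
theorem mapSer_ofPowerSeries {K L : Type*} [Field K] [Field L] (σ : K →+* L) (c : PowerSeries K) :
    mapSer σ (HahnSeries.ofPowerSeries ℤ K c) = HahnSeries.ofPowerSeries ℤ L (c.map σ) := by
  ext n
  rw [coeff_mapSer]
  rcases le_or_gt 0 n with h0 | h0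
  · lift n to ℕ using h0
    simp [HahnSeries.ofPowerSeries_apply_coeff]
  · rw [HahnSeries.ofPowerSeries_apply, HahnSeries.ofPowerSeries_apply,
      HahnSeries.embDomain_of_notMem_range, HahnSeries.embDomain_of_notMem_range, map_zero] <;>
    · rintro ⟨i, hi⟩; simp at hi; omega

omit [NeZero M] in
/-- The relation passes to inverses. -/
private theorem galRel_inv {b : ZMod M} {x x' : SL(2, ℤ)} (h : GalRel b x x') :
    GalRel b x⁻¹ x'⁻¹ := by
  rw [GalRel] at h ⊢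
  calc !![1, 0; 0, b] * modMat M x'⁻¹
      = modMat M x⁻¹ * (modMat M x * !![1, 0; 0, b]) * modMat M x'⁻¹ := by
        rw [← mul_assoc, ← modMat_mul, inv_mul_cancel, modMat_one, one_mul]
    _ = _ := by
        rw [← h, mul_assoc, mul_assoc, ← modMat_mul, mul_inv_cancel, modMat_one, mul_one]

omit [NeZero M] in
/-- Translations are related by scaling. -/
private theorem galRel_T_zpow {b : ZMod M} {h h' : ℤ} (hh : (h' : ZMod M) = (h : ZMod M) * b) :
    GalRel b (ModularGroup.T ^ h) (ModularGroup.T ^ h') := by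
  rw [GalRel]
  ext i j
  fin_cases i <;> fin_cases j <;>
    simp [modMat, Matrix.mul_apply, Fin.sum_univ_two, ModularGroup.coe_T_zpow, hh]

/-- The scaled root of unity of a translation. -/
private theorem zetaC_zpow_of_scaled {h h' : ℤ} {a : ℕ}
    (hh : (h' : ZMod M) = (h : ZMod M) * (a : ZMod M)) : zetaC M ^ h' = (zetaC M ^ h) ^ a := by
  rw [← zpow_natCast (zetaC M ^ h) a, ← zpow_mul]
  obtain ⟨t, ht⟩ := (ZMod.intCast_eq_intCast_iff_dvd_sub (h * a) h' M).mp (by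
    push_cast; rw [← hh])
  have h1 : zetaC M ^ ((M : ℤ) * t) = 1 := by
    rw [zpow_mul, zpow_natCast, (zetaC_isPrimitiveRoot M).pow_eq_one, one_zpow]
  rw [show h' = h * a + M * t by linarith,
    zpow_add₀ (show zetaC M ≠ 0 from Complex.exp_ne_zero _), h1, mul_one]

/-- Invariance under a translation passes to a conjugate series. -/
private theorem translate_conj_eq {f f' : ℍ → ℂ} {c : PowerSeries ℂ} {rt : ℂ} {τ : ℂ →+* ℂ}
    {h h' : ℤ} {a : ℕ} (hz : zetaC M ^ h' = (zetaC M ^ h) ^ a) (hf : HasExp M f c)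
    (hfix : (fun z => f ((h : ℝ) +ᵥ z)) = f) (hf' : HasExp M f' (PowerSeries.C rt * c.map τ)) :
    (fun z => f' ((h' : ℝ) +ᵥ z)) = f' := by
  refine (hf'.translate h').eq_of_series ?_
  convert hf' using 1
  ext e
  rw [PowerSeries.coeff_mk, PowerSeries.coeff_C_mul, PowerSeries.coeff_map]
  have h2 := congrArg (PowerSeries.coeff e) ((hf.translate h).series_unique (hfix.symm ▸ hf))
  rw [PowerSeries.coeff_mk] at h2
  by_cases h0 : PowerSeries.coeff e c = 0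
  · simp [h0]
  · rw [hz, ← pow_mul, mul_comm a e, pow_mul,
      mul_left_cancel₀ h0 (h2.trans (mul_one _).symm), one_pow, mul_one]

/-- The conjugate of a form with parabolic multiplier has parabolic multiplier. -/
private theorem conj_slash_eq_self {N : ℕ} (hNM : N ∣ M) {Γ : Subgroup SL(2, ℤ)}
    (hG : GalStable N Γ) (hneg : -1 ∈ Γ) {a : ℕ} (ha : IsUnit (a : ZMod M)) {φ : Γ →* ℂˣ}
    (hφ : IsParChar Γ φ) {i : ℕ} {v v' : ℍ → ℂ} (hv : IsTwist Γ ((2 * i : ℕ) : ℤ) φ v)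
    {τ : ℂ →+* ℂ} (hloc : ∀ γ γ', GalRel (a : ZMod M) γ γ' → ∃ rt : ℂ,
      HasExp M (v' ∣[((2 * i : ℕ) : ℤ)] γ') (PowerSeries.C rt *
        (qExpansion (M : ℝ) (v ∣[((2 * i : ℕ) : ℤ)] γ)).map τ))
    (γ' : Γ) (htr : ((γ' : SL(2, ℤ)) : Matrix (Fin 2) (Fin 2) ℤ).trace ^ 2 = 4) :
    v' ∣[((2 * i : ℕ) : ℤ)] (γ' : SL(2, ℤ)) = v' := by
  have hΓ : Gamma M ≤ Γ := (gamma_le_of_dvd hNM).trans hG.gamma_le
  set k : ℤ := ((2 * i : ℕ) : ℤ) with hk
  obtain ⟨δ', h', he⟩ := exists_conj_T_of_trace htr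
  obtain ⟨δ, hδ⟩ := GalRel.exists_left ha δ'
  obtain ⟨u, hu⟩ := ha
  obtain ⟨h, hh⟩ := ZMod.intCast_surjective (((h' : ℤ) : ZMod M) * ((u⁻¹ : (ZMod M)ˣ) : ZMod M))
  have hha : ((h' : ℤ) : ZMod M) = (h : ZMod M) * (a : ZMod M) := by
    rw [hh, ← hu, Units.inv_mul_cancel_right]
  have hr0 : GalRel (a : ZMod M) (δ * ModularGroup.T ^ h * δ⁻¹)
      (δ' * ModularGroup.T ^ h' * δ'⁻¹) :=
    (hδ.mul (galRel_T_zpow hha)).mul (galRel_inv hδ)
  -- the element `δ T^h δ⁻¹` lies in `Γ` up to sign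
  set x := δ * ModularGroup.T ^ h * δ⁻¹ with hx
  have hxΓ : x ∈ Γ := by
    have haN : IsUnit (a : ZMod N) := isUnit_natCast_of_dvd hNM ⟨u, hu⟩
    rcases he with e | e
    · exact (hG.stable _ haN x _ (hr0.of_dvd hNM)).mpr (e ▸ γ'.2)
    · have hmem : -x ∈ Γ := (hG.stable _ haN (-x) _ (hr0.neg.of_dvd hNM)).mpr (by
        rw [← e, neg_neg]; exact γ'.2)
      have := Γ.mul_mem hneg hmem
      simpa using this
  have hxtr : ((x : SL(2, ℤ)) : Matrix (Fin 2) (Fin 2) ℤ).trace ^ 2 = 4 := by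
    rw [hx, Matrix.SpecialLinearGroup.coe_mul, Matrix.trace_mul_comm,
      ← Matrix.SpecialLinearGroup.coe_mul, inv_mul_cancel_left, ModularGroup.coe_T_zpow]
    simp [Matrix.trace_fin_two]
  have hvfix : (v ∣[k] δ) ∣[k] (ModularGroup.T ^ h) = v ∣[k] δ := by
    have h1 := hv.slash ⟨x, hxΓ⟩
    rw [hφ ⟨x, hxΓ⟩ hxtr] at h1
    simp only [Units.val_one, one_mul] at h1
    rw [← SlashAction.slash_mul, show δ * ModularGroup.T ^ h = x * δ by rw [hx]; group,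
      SlashAction.slash_mul, h1]
  rw [slash_T_zpow] at hvfix
  obtain ⟨rt, hrt⟩ := hloc δ δ' hδ
  have hfix' : (v' ∣[k] δ') ∣[k] (ModularGroup.T ^ h') = v' ∣[k] δ' := by
    rw [slash_T_zpow]
    exact translate_conj_eq (zetaC_zpow_of_scaled hha) (hasExp_slash_twist hΓ hφ hv δ) hvfix hrt
  have e2 : v' ∣[k] (δ' * ModularGroup.T ^ h' * δ'⁻¹) = v' := by
    rw [SlashAction.slash_mul, SlashAction.slash_mul, hfix', ← SlashAction.slash_mul,
      mul_inv_cancel, SlashAction.slash_one]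
  rcases he with e | e
  · rw [e, e2]
  · rw [hk, ← slash_even_neg, e, ← hk, e2]

variable {m : ℕ} (haux : AuxLevel M m)
include haux

variable {σ : ℂ ≃+* ℂ} {a : ℕ}

/-- A root of the conjugate of the power, normalised at the identity. -/
private theorem exists_conj_root {N : ℕ} (hNM : N ∣ M) {Γ : Subgroup SL(2, ℤ)}
    (hG : GalStable N Γ) (ha : IsUnit (a : ZMod M)) (hσ : σ (zetaC M) = zetaC M ^ a)
    {n : ℕ} (hn : 0 < n) {φ : Γ →* ℂˣ} (hφn : φ ^ n = 1) (hφ : IsParChar Γ φ) {i : ℕ} {v : ℍ → ℂ}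
    (hv : IsTwist Γ ((2 * i : ℕ) : ℤ) φ v) (hv0 : v ≠ 0) :
    ∃ v' : ℍ → ℂ, MDiff v' ∧ v' ≠ 0 ∧
      IsTwist Γ ((2 * (n * i) : ℕ) : ℤ) 1 (v' ^ n) ∧
      (∀ γ γ', GalRel (a : ZMod M) γ γ' → ∃ rt : ℂ,
        HasExp M (v' ∣[((2 * i : ℕ) : ℤ)] γ') (PowerSeries.C rt *
          (qExpansion (M : ℝ) (v ∣[((2 * i : ℕ) : ℤ)] γ)).map (σ : ℂ →+* ℂ))) ∧
      ∀ c, HasExp M v c → HasExp M v' (c.map (σ : ℂ →+* ℂ)) := by
  have hΓ : Gamma M ≤ Γ := (gamma_le_of_dvd hNM).trans hG.gamma_le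
  set k : ℤ := ((2 * i : ℕ) : ℤ) with hk
  have hkn : ((2 * (n * i) : ℕ) : ℤ) = (n : ℤ) * k := by rw [hk]; push_cast; ring
  have hvn : IsTwist Γ ((2 * (n * i) : ℕ) : ℤ) 1 (v ^ n) := by
    rw [hkn, ← hφn]; exact hv.pow n
  obtain ⟨f', hf', hexp, hdiv⟩ := exists_conj_form haux hNM hG ha hσ hvn
  obtain ⟨τ0, hτ0⟩ := Function.ne_iff.mp hv0
  have hvn0 : v ^ n ≠ 0 := fun h => pow_ne_zero n hτ0 (congrFun h τ0)
  obtain ⟨hf'0, hord⟩ := hdiv hvn0 n fun τ => by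
    obtain ⟨j, hj⟩ := ENat.ne_top_iff_exists.mp (vanishOrd_ne_top hv.mdiff hv0 τ)
    exact ⟨j, by rw [vanishOrd_pow hv.mdiff, ← hj, nsmul_eq_mul]; push_cast; ring⟩
  obtain ⟨g0, hg0, hg0n⟩ := exists_root hf'.mdiff hf'0 hn hord
  -- expansions of `v ^ n` and its conjugate
  set cs : SL(2, ℤ) → PowerSeries ℂ := fun γ => qExpansion (M : ℝ) (v ∣[k] γ)
  have hcs : ∀ γ, HasExp M (v ∣[k] γ) (cs γ) := fun γ => hasExp_slash_twist hΓ hφ hv γ
  have hcs0 : ∀ γ, (cs γ).map (σ : ℂ →+* ℂ) ≠ 0 := by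
    intro γ h0
    have h1 : cs γ = 0 := PowerSeries.map_injective (σ : ℂ →+* ℂ) (RingHom.injective _)
      (h0.trans (map_zero _).symm)
    exact slash_ne_zero γ hv0 ((h1 ▸ hcs γ).eq_of_series HasExp.zero)
  have hrel : ∀ γ γ', GalRel (a : ZMod M) γ γ' →
      HasExp M (fun τ => (g0 ∣[k] γ') τ ^ n) ((cs γ).map (σ : ℂ →+* ℂ) ^ n) := by
    intro γ γ' hr
    have h1 : HasLExp M ((v ^ n) ∣[((2 * (n * i) : ℕ) : ℤ)] γ)
        (HahnSeries.ofPowerSeries ℤ ℂ (cs γ ^ n)) := by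
      rw [hkn, slash_pow]
      exact HasLExp.of_exp ((hcs γ).pow n)
    have h2 := hexp γ γ' hr _ h1
    rw [mapSer_ofPowerSeries, map_pow, ← hg0n, hkn, slash_pow] at h2
    exact hasExp_of_hasLExp_ps h2
  obtain ⟨ω, hωn, hω⟩ := exists_exp_of_pow hg0 hn (hcs0 1) (by
    have h := hrel 1 1 (GalRel.one _)
    simpa only [SlashAction.slash_one] using h)
  have hω0 : ω ≠ 0 := fun h => by
    rw [h, zero_pow hn.ne'] at hωn; exact zero_ne_one hωn
  have hv'n : (ω⁻¹ • g0) ^ n = f' := by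
    rw [smul_pow, hg0n, inv_pow, hωn, inv_one, one_smul]
  refine ⟨ω⁻¹ • g0, hg0.const_smul _, fun h => hf'0 (by rw [← hv'n, h, zero_pow hn.ne']),
    hv'n.symm ▸ hf', fun γ γ' hr => ?_, fun c1 hc1 => ?_⟩
  · obtain ⟨rt, -, hrt⟩ :=
      exists_exp_of_pow (g := g0 ∣[k] γ') (hg0.slash k _) hn (hcs0 γ) (hrel γ γ' hr)
    refine ⟨ω⁻¹ * rt, ?_⟩
    rw [ModularForm.SL_smul_slash, map_mul, mul_assoc]
    exact (hrt.smul ω⁻¹).congr_fun fun τ => by simp
  · have e : c1 = cs 1 := by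
      have := hcs 1
      rw [SlashAction.slash_one] at this
      exact hc1.series_unique this
    rw [e]
    have h := (hω.smul ω⁻¹).congr_fun (g := ω⁻¹ • g0) fun τ => by simp
    rwa [← mul_assoc, ← map_mul, inv_mul_cancel₀ hω0, map_one, one_mul] at h

/-- A translate of a conjugate form has, up to a root of unity, the conjugate of the expansion of
the related translate of the form. -/
theorem exists_exp_slash_conj {N : ℕ} (hNM : N ∣ M) {Γ : Subgroup SL(2, ℤ)} (hG : GalStable N Γ)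
    (ha : IsUnit (a : ZMod M)) (hσ : σ (zetaC M) = zetaC M ^ a) {n : ℕ} (hn : 0 < n)
    {φ : Γ →* ℂˣ} (hφn : φ ^ n = 1) {i : ℕ} {v v' : ℍ → ℂ} {c d : PowerSeries ℂ}
    (hv : IsTwist Γ ((2 * i : ℕ) : ℤ) φ v) (hv0 : v ≠ 0) (hv' : MDiff v') (hc : HasExp M v c)
    (hc' : HasExp M v' (c.map (σ : ℂ →+* ℂ))) {γ γ' : SL(2, ℤ)} (hr : GalRel (a : ZMod M) γ γ')
    (hd : HasExp M (v ∣[((2 * i : ℕ) : ℤ)] γ) d) :
    ∃ ω : ℂ, ω ^ n = 1 ∧ ω ≠ 0 ∧
      HasExp M (v' ∣[((2 * i : ℕ) : ℤ)] γ') (PowerSeries.C ω * d.map (σ : ℂ →+* ℂ)) := by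
  have hkn : ((2 * (n * i) : ℕ) : ℤ) = (n : ℤ) * ((2 * i : ℕ) : ℤ) := by push_cast; ring
  have hvn : IsTwist Γ ((2 * (n * i) : ℕ) : ℤ) 1 (v ^ n) := by rw [hkn, ← hφn]; exact hv.pow n
  obtain ⟨f', -, hexp, -⟩ := exists_conj_form haux hNM hG ha hσ hvn
  have h1 := hexp 1 1 (GalRel.one _) _ (by
    rw [SlashAction.slash_one]; exact HasLExp.of_exp (hc.pow n))
  rw [SlashAction.slash_one, mapSer_ofPowerSeries, map_pow] at h1
  obtain rfl : f' = v' ^ n := h1.eq_of_series (HasLExp.of_exp (hc'.pow n))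
  have h2 := hexp γ γ' hr _ (by rw [hkn, slash_pow]; exact HasLExp.of_exp (hd.pow n))
  rw [hkn, slash_pow, mapSer_ofPowerSeries, map_pow] at h2
  obtain ⟨ω, hω, hω'⟩ := exists_exp_of_pow (hv'.slash _ γ') hn (c0 := d.map (σ : ℂ →+* ℂ))
    (fun h0 => by
      have hd0 : d = 0 := PowerSeries.map_injective (σ : ℂ →+* ℂ) (RingHom.injective _)
        (h0.trans (map_zero _).symm)
      exact slash_ne_zero γ hv0 ((hd0 ▸ hd).eq_of_series HasExp.zero))
    (hasExp_of_hasLExp_ps h2)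
  exact ⟨ω, hω, fun h0 => by simp [h0, zero_pow hn.ne'] at hω, hω'⟩

/-- Existence of the conjugate of a form with multiplier. -/
theorem exists_conj_twist {N : ℕ} (hNM : N ∣ M) {Γ : Subgroup SL(2, ℤ)} (hG : GalStable N Γ)
    (hneg : -1 ∈ Γ) (ha : IsUnit (a : ZMod M)) (hσ : σ (zetaC M) = zetaC M ^ a)
    {n : ℕ} (hn : 0 < n) {φ : Γ →* ℂˣ} (hφn : φ ^ n = 1) (hφ : IsParChar Γ φ) {i : ℕ} {v : ℍ → ℂ}
    (hv : IsTwist Γ ((2 * i : ℕ) : ℤ) φ v) (hv0 : v ≠ 0) :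
    ∃ (φ' : Γ →* ℂˣ) (v' : ℍ → ℂ), IsTwist Γ ((2 * i : ℕ) : ℤ) φ' v' ∧ v' ≠ 0 ∧ φ' ^ n = 1 ∧
      IsParChar Γ φ' ∧ ∀ c, HasExp M v c → HasExp M v' (c.map (σ : ℂ →+* ℂ)) := by
  set k : ℤ := ((2 * i : ℕ) : ℤ) with hk
  have hkn : ((2 * (n * i) : ℕ) : ℤ) = (n : ℤ) * k := by rw [hk]; push_cast; ring
  obtain ⟨v', hv'md, hv'0, hv'n, hloc, hone⟩ :=
    exists_conj_root haux hNM hG ha hσ hn hφn hφ hv hv0
  have hmult : ∀ γ' : Γ, ∃ c : ℂˣ, c ^ n = 1 ∧ ∀ τ, (v' ∣[k] (γ' : SL(2, ℤ))) τ = c * v' τ := by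
    intro γ'
    refine exists_eq_const_mul_of_pow_eq (f := v' ∣[k] (γ' : SL(2, ℤ))) (hv'md.slash _ _) hv'md hn
      hv'0 ?_
    rw [← slash_pow, ← hkn, hv'n.slash γ']
    funext τ; simp
  choose c hcn hc using hmult
  obtain ⟨τ1, hτ1⟩ := Function.ne_iff.mp hv'0
  let φ' : Γ →* ℂˣ :=
    { toFun := c
      map_one' := Units.ext (mul_right_cancel₀ hτ1 (by
        have h := hc 1 τ1
        simp only [Subgroup.coe_one, SlashAction.slash_one] at h
        rw [← h, Units.val_one, one_mul]))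
      map_mul' := fun x y => Units.ext (mul_right_cancel₀ hτ1 (by
        have h := hc (x * y) τ1
        rw [Subgroup.coe_mul, SlashAction.slash_mul,
          show v' ∣[k] (x : SL(2, ℤ)) = (c x : ℂ) • v' from funext fun τ => hc x τ,
          ModularForm.SL_smul_slash, Pi.smul_apply, smul_eq_mul, hc y τ1, ← mul_assoc] at h
        rw [Units.val_mul]; exact h.symm)) }
  refine ⟨φ', v', ⟨hv'md, fun γ => funext fun τ => hc γ τ, fun γ' => ?_⟩, hv'0,
    MonoidHom.ext fun γ => hcn γ, fun γ' htr => ?_, hone⟩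
  · obtain ⟨γ, hr⟩ := GalRel.exists_left ha γ'
    obtain ⟨rt, hrt⟩ := hloc γ γ' hr
    exact hrt.isBounded
  · refine Units.ext (mul_right_cancel₀ hτ1 ?_)
    have h2 := hc γ' τ1
    rw [conj_slash_eq_self hNM hG hneg ha hφ hv hloc γ' htr] at h2
    rw [Units.val_one, one_mul]
    exact h2.symm

/-- Any nonzero conjugate form has the same multiplier. -/
theorem conj_twist_unique {N : ℕ} (hNM : N ∣ M) {Γ : Subgroup SL(2, ℤ)} (hG : GalStable N Γ)
    (ha : IsUnit (a : ZMod M)) (hσ : σ (zetaC M) = zetaC M ^ a) {n : ℕ} (hn : 0 < n)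
    {φ φ' ψ : Γ →* ℂˣ} (hφn : φ ^ n = 1) (hφ'n : φ' ^ n = 1) {i l : ℕ} {v v' u u' : ℍ → ℂ}
    {c d : PowerSeries ℂ} (hv : IsTwist Γ ((2 * i : ℕ) : ℤ) φ v)
    (hv' : IsTwist Γ ((2 * i : ℕ) : ℤ) φ' v') (hv'0 : v' ≠ 0) (hc : HasExp M v c)
    (hc' : HasExp M v' (c.map (σ : ℂ →+* ℂ))) (hu : IsTwist Γ ((2 * l : ℕ) : ℤ) φ u)
    (hu' : IsTwist Γ ((2 * l : ℕ) : ℤ) ψ u') (hu'0 : u' ≠ 0) (hd : HasExp M u d)
    (hd' : HasExp M u' (d.map (σ : ℂ →+* ℂ))) : ψ = φ' := by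
  have hwt : ((2 * (l + (n - 1) * i) : ℕ) : ℤ) =
      ((2 * l : ℕ) : ℤ) + ((n - 1 : ℕ) : ℤ) * ((2 * i : ℕ) : ℤ) := by push_cast; ring
  have h1 : IsTwist Γ ((2 * (l + (n - 1) * i) : ℕ) : ℤ) 1 (u * v ^ (n - 1)) := by
    rw [hwt, ← hφn]
    have h := hu.mul (hv.pow (n - 1))
    have e : φ * φ ^ (n - 1) = φ ^ n := MonoidHom.ext fun γ => by
      simp only [MonoidHom.mul_apply, MonoidHom.pow_apply]
      rw [← pow_succ', Nat.sub_add_cancel hn]
    rwa [e] at h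
  have h2 : IsTwist Γ ((2 * (l + (n - 1) * i) : ℕ) : ℤ) (ψ * φ' ^ (n - 1)) (u' * v' ^ (n - 1)) := by
    rw [hwt]; exact hu'.mul (hv'.pow (n - 1))
  obtain ⟨f', hf', hexp, -⟩ := exists_conj_form haux hNM hG ha hσ h1
  have e0 := hexp 1 1 (GalRel.one _) (HahnSeries.ofPowerSeries ℤ ℂ (d * c ^ (n - 1))) (by
    rw [SlashAction.slash_one]
    exact HasLExp.of_exp (hd.mul (hc.pow _)))
  rw [SlashAction.slash_one, mapSer_ofPowerSeries, map_mul, map_pow] at e0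
  have heq : f' = u' * v' ^ (n - 1) :=
    e0.eq_of_series (HasLExp.of_exp (hd'.mul (hc'.pow _)))
  have hne : u' * v' ^ (n - 1) ≠ 0 := by
    obtain ⟨τ, hτ⟩ := Function.ne_iff.mp hu'0
    intro h0
    -- identity theorem
    have han : ∀ {f : ℍ → ℂ}, MDiff f → AnalyticOnNhd ℂ (f ∘ ofComplex) {z : ℂ | 0 < z.im} :=
      fun {f} hf =>
        (UpperHalfPlane.mdifferentiable_iff.mp hf).analyticOnNhd isOpen_upperHalfPlaneSet
    have hv0 : v' ^ (n - 1) = 0 := funext fun σ' => by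
      have hev : ((v' ^ (n - 1)) ∘ ofComplex) =ᶠ[𝓝 (τ : ℂ)] 0 := by
        filter_upwards [((han hu'.mdiff) _ τ.im_pos).continuousAt.eventually_ne
          (show (u' ∘ ofComplex) (τ : ℂ) ≠ 0 by simpa [ofComplex_apply] using hτ)] with z hz
        exact (mul_eq_zero.mp (congrFun h0 (ofComplex z))).resolve_left hz
      have := (han (hv'.pow (n - 1)).mdiff).eqOn_zero_of_preconnected_of_eventuallyEq_zero
        (convex_halfSpace_im_gt 0).isPreconnected τ.im_pos hev σ'.im_pos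
      simpa [ofComplex_apply] using this
    obtain ⟨σ', hσ'⟩ := Function.ne_iff.mp hv'0
    exact pow_ne_zero _ hσ' (congrFun hv0 σ')
  have h3 := h2.mult_unique (heq ▸ hf') hne
  refine MonoidHom.ext fun γ => ?_
  have h4 := DFunLike.congr_fun h3 γ
  have h5 := DFunLike.congr_fun hφ'n γ
  simp only [MonoidHom.mul_apply, MonoidHom.pow_apply, MonoidHom.one_apply] at h4 h5
  calc ψ γ = ψ γ * φ' γ ^ (n - 1) * φ' γ := by
        rw [mul_assoc, ← pow_succ, Nat.sub_add_cancel hn, h5, mul_one]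
    _ = φ' γ := by rw [h4, one_mul]

end FermatAgent.ES
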