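import Fermat.Agent.ES.Forms.Finite
import Mathlib.GroupTheory.Schreier
import Mathlib.LinearAlgebra.Matrix.FixedDetMatrices
import Mathlib.Algebra.Group.End
import Mathlib.FieldTheory.IsAlgClosed.AlgebraicClosure

/-!
# The Galois action on parabolic characters

For a good level (`GoodLevel`, e.g. `goodLevel_Gamma0`) a field automorphism of `ℂ` sends the
multiplier of a form to that of the form with conjugated series (`IsConjTwist`). This is well
defined (`isConjTwist_exists`, `isConjTwist_unique`) and gives the action `conjAut` on the finite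
group `parGroup` of parabolic characters of exponent `n`. Its kernel has finite index
(`finiteIndex_ker_conjAut`), and as every character has a weight four form with algebraic
coefficients (`exists_algebraic_form`), it only depends on algebraic numbers (`conjAut_congr`).
-/

set_option autoImplicit false

open Filter Topology UpperHalfPlane CongruenceSubgroup
open scoped MatrixGroups ModularForm Manifold

noncomputable section

namespace FermatAgent.ES

/-- Levels to which the theory applies. -/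
structure GoodLevel (N : ℕ) (Γ : Subgroup SL(2, ℤ)) : Prop extends GalStable N Γ where
  neg_mem : -1 ∈ Γ
  T_mem : ModularGroup.T ∈ Γ

/-- `Γ₀(N)` is a good level. -/
theorem goodLevel_Gamma0 (N : ℕ) : GoodLevel N (Gamma0 N) where
  gamma_le := fun γ hγ => by
    rw [Gamma0_mem]
    exact ((Gamma_mem (N := N) (γ := γ)).mp hγ).2.2.1
  stable := fun _ ha _ _ h => h.mem_Gamma0 ha
  neg_mem := by simp [Gamma0_mem]
  T_mem := by simp [Gamma0_mem, ModularGroup.coe_T]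

/-- Parabolic characters of exponent `n`. -/
def parGroup (Γ : Subgroup SL(2, ℤ)) (n : ℕ) : Subgroup (Γ →* ℂˣ) where
  carrier := {φ | φ ^ n = 1 ∧ IsParChar Γ φ}
  one_mem' := ⟨MonoidHom.ext fun γ => by simp, fun γ _ => rfl⟩
  mul_mem' {φ ψ} hφ hψ := ⟨MonoidHom.ext fun γ => by
      have h1 := DFunLike.congr_fun hφ.1 γ
      have h2 := DFunLike.congr_fun hψ.1 γ
      simp only [MonoidHom.pow_apply, MonoidHom.mul_apply, MonoidHom.one_apply] at h1 h2 ⊢
      rw [mul_pow, h1, h2, one_mul],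
    fun γ hγ => by rw [MonoidHom.mul_apply, hφ.2 γ hγ, hψ.2 γ hγ, one_mul]⟩
  inv_mem' {φ} hφ := ⟨MonoidHom.ext fun γ => by
      have h1 := DFunLike.congr_fun hφ.1 γ
      simp only [MonoidHom.pow_apply, MonoidHom.inv_apply, MonoidHom.one_apply] at h1 ⊢
      rw [inv_pow, h1, inv_one],
    fun γ hγ => by rw [MonoidHom.inv_apply, hφ.2 γ hγ, inv_one]⟩

/-- `12 N` with `3` is an auxiliary level. -/
theorem auxLevel12 (N : ℕ) [NeZero N] : AuxLevel (12 * N) 3 :=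
  ⟨Or.inr rfl, ⟨4 * N, by ring⟩, by have := NeZero.one_le (n := N); omega⟩

/-- An automorphism of `ℂ` acts on roots of unity of order `M` by an exponent prime to `M`. -/
theorem exists_unit_exponent (M : ℕ) [NeZero M] (σ : ℂ ≃+* ℂ) :
    ∃ a : ℕ, IsUnit (a : ZMod M) ∧ σ (zetaC M) = zetaC M ^ a := by
  have h1 : IsPrimitiveRoot (σ (zetaC M)) M :=
    (zetaC_isPrimitiveRoot M).map_of_injective σ.injective
  obtain ⟨a, -, ha, he⟩ := (IsPrimitiveRoot.isPrimitiveRoot_iff (zetaC_isPrimitiveRoot M)).mp h1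
  exact ⟨a, (ZMod.isUnit_iff_coprime a M).mpr ha, he.symm⟩

variable {N : ℕ} [NeZero N] {Γ : Subgroup SL(2, ℤ)}

/-- `φ'` is the multiplier of a `σ`-conjugate of a form with multiplier `φ`. -/
def IsConjTwist (N : ℕ) (Γ : Subgroup SL(2, ℤ)) (σ : ℂ ≃+* ℂ) (φ φ' : Γ →* ℂˣ) : Prop :=
  ∃ (i : ℕ) (v v' : ℍ → ℂ) (c : PowerSeries ℂ), IsTwist Γ ((2 * i : ℕ) : ℤ) φ v ∧ v ≠ 0 ∧
    IsTwist Γ ((2 * i : ℕ) : ℤ) φ' v' ∧ v' ≠ 0 ∧ HasExp (12 * N) v c ∧
      HasExp (12 * N) v' (c.map (σ : ℂ →+* ℂ))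

omit [NeZero N] in
/-- A good level contains `Γ(12 N)`. -/
theorem gamma12_le (hG : GoodLevel N Γ) : Gamma (12 * N) ≤ Γ :=
  (gamma_le_of_dvd (dvd_mul_left N 12)).trans hG.gamma_le

/-- Forms with parabolic multiplier on a good level have expansions of width `12 N`. -/
theorem hasExp_twist (hG : GoodLevel N Γ) {k : ℤ} {φ : Γ →* ℂˣ} (hφ : IsParChar Γ φ) {v : ℍ → ℂ}
    (hv : IsTwist Γ k φ v) : HasExp (12 * N) v (qExpansion ((12 * N : ℕ) : ℝ) v) := by
  have h := hasExp_slash_twist (M := 12 * N) (gamma12_le hG) hφ hv 1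
  rwa [SlashAction.slash_one] at h

/-- A conjugate pair of forms gives conjugate multipliers. -/
theorem IsConjTwist.mk_of {σ : ℂ ≃+* ℂ} {φ φ' : Γ →* ℂˣ} {i : ℕ} {v v' : ℍ → ℂ}
    {c : PowerSeries ℂ} (hv : IsTwist Γ ((2 * i : ℕ) : ℤ) φ v) (hv0 : v ≠ 0)
    (hv' : IsTwist Γ ((2 * i : ℕ) : ℤ) φ' v') (hc : HasExp (12 * N) v c)
    (hc' : HasExp (12 * N) v' (c.map (σ : ℂ →+* ℂ))) : IsConjTwist N Γ σ φ φ' := by
  refine ⟨i, v, v', c, hv, hv0, hv', fun h => ?_, hc, hc'⟩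
  have h1 : c.map (σ : ℂ →+* ℂ) = 0 := hc'.series_unique (h ▸ HasExp.zero)
  have h2 : c = 0 := PowerSeries.map_injective (σ : ℂ →+* ℂ) (RingHom.injective _)
    (h1.trans (map_zero _).symm)
  exact hv0 ((h2 ▸ hc).eq_of_series HasExp.zero)

theorem isConjTwist_exists (hG : GoodLevel N Γ) {n : ℕ} [NeZero n] (σ : ℂ ≃+* ℂ)
    (φ : parGroup Γ n) : ∃ φ' : parGroup Γ n, IsConjTwist N Γ σ φ φ' := by
  obtain ⟨hn, hpar⟩ := φ.2
  obtain ⟨a, ha, hσ⟩ := exists_unit_exponent (12 * N) σ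
  have hv : IsTwist Γ ((2 * 2 : ℕ) : ℤ) (φ : Γ →* ℂˣ) (twistEis (φ : Γ →* ℂˣ)) := by
    exact_mod_cast isTwist_twistEis hn hpar
  have hv0 := twistEis_ne_zero hn hpar hG.neg_mem
  obtain ⟨φ', v', hv', hv'0, hφ'n, hφ'p, hser⟩ := exists_conj_twist (auxLevel12 N)
    (dvd_mul_left N 12) hG.toGalStable hG.neg_mem ha hσ (NeZero.pos n) hn hpar hv hv0
  exact ⟨⟨φ', hφ'n, hφ'p⟩, 2, _, v', _, hv, hv0, hv', hv'0, hasExp_twist hG hpar hv,
    hser _ (hasExp_twist hG hpar hv)⟩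

/-- The conjugate multiplier of exponent `n` is unique. -/
theorem isConjTwist_unique (hG : GoodLevel N Γ) {n : ℕ} [NeZero n] {σ : ℂ ≃+* ℂ}
    {φ φ' ψ : Γ →* ℂˣ} (hφn : φ ^ n = 1) (hφ'n : φ' ^ n = 1) (h : IsConjTwist N Γ σ φ φ')
    (h' : IsConjTwist N Γ σ φ ψ) : ψ = φ' := by
  obtain ⟨i, v, v', c, hv, -, hv', hv'0, hc, hc'⟩ := h
  obtain ⟨l, u, u', d, hu, -, hu', hu'0, hd, hd'⟩ := h'
  obtain ⟨a, ha, hσ⟩ := exists_unit_exponent (12 * N) σ
  exact conj_twist_unique (auxLevel12 N) (dvd_mul_left N 12) hG.toGalStable ha hσ (NeZero.pos n)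
    hφn hφ'n hv hv' hv'0 hc hc' hu hu' hu'0 hd hd'

/-- A product of nonzero holomorphic functions on `ℍ` is nonzero. -/
theorem mul_ne_zero_of_mdiff {f g : ℍ → ℂ} (hg : MDiff g) (hf : MDiff f) (hf0 : f ≠ 0)
    (hg0 : g ≠ 0) : f * g ≠ 0 := by
  intro h
  obtain ⟨τ, hτ⟩ := Function.ne_iff.mp hf0
  have hc : ContinuousAt (f ∘ ofComplex) (τ : ℂ) :=
    (UpperHalfPlane.mdifferentiable_iff.mp hf).continuousOn.continuousAt
      (isOpen_upperHalfPlaneSet.mem_nhds τ.im_pos)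
  have hev : (g ∘ ofComplex) =ᶠ[𝓝 (τ : ℂ)] 0 := by
    filter_upwards [hc.eventually_ne (show (f ∘ ofComplex) (τ : ℂ) ≠ 0 by
      simpa [ofComplex_apply] using hτ)] with z hz
    exact (mul_eq_zero.mp (congrFun h (ofComplex z))).resolve_left hz
  refine hg0 (funext fun σ' => ?_)
  have := ((UpperHalfPlane.mdifferentiable_iff.mp hg).analyticOnNhd
    isOpen_upperHalfPlaneSet).eqOn_zero_of_preconnected_of_eventuallyEq_zero
    (convex_halfSpace_im_gt 0).isPreconnected τ.im_pos hev σ'.im_pos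
  simpa [ofComplex_apply] using this

/-- The conjugate character. -/
def conjChar (hG : GoodLevel N Γ) {n : ℕ} [NeZero n] (σ : ℂ ≃+* ℂ) (φ : parGroup Γ n) :
    parGroup Γ n := (isConjTwist_exists hG σ φ).choose

/-- The conjugate character is a conjugate multiplier. -/
theorem conjChar_spec (hG : GoodLevel N Γ) {n : ℕ} [NeZero n] (σ : ℂ ≃+* ℂ) (φ : parGroup Γ n) :
    IsConjTwist N Γ σ φ (conjChar hG σ φ) := (isConjTwist_exists hG σ φ).choose_spec

/-- The conjugate character is the only conjugate multiplier. -/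
theorem conjChar_eq (hG : GoodLevel N Γ) {n : ℕ} [NeZero n] {σ : ℂ ≃+* ℂ} {φ φ' : parGroup Γ n}
    (h : IsConjTwist N Γ σ φ φ') : conjChar hG σ φ = φ' :=
  Subtype.ext (isConjTwist_unique hG φ.2.1 φ'.2.1 h (conjChar_spec hG σ φ))

/-- Conjugation of characters is multiplicative. -/
theorem conjChar_mul (hG : GoodLevel N Γ) {n : ℕ} [NeZero n] (σ : ℂ ≃+* ℂ) (φ ψ : parGroup Γ n) :
    conjChar hG σ (φ * ψ) = conjChar hG σ φ * conjChar hG σ ψ := by
  obtain ⟨i, v, v', c, hv, hv0, hv', hv'0, hc, hc'⟩ := conjChar_spec hG σ φ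
  obtain ⟨l, u, u', d, hu, hu0, hu', hu'0, hd, hd'⟩ := conjChar_spec hG σ ψ
  have hw : ((2 * (i + l) : ℕ) : ℤ) = ((2 * i : ℕ) : ℤ) + ((2 * l : ℕ) : ℤ) := by push_cast; ring
  refine conjChar_eq hG ⟨i + l, v * u, v' * u', c * d, ?_,
    mul_ne_zero_of_mdiff hu.mdiff hv.mdiff hv0 hu0,
    ?_, mul_ne_zero_of_mdiff hu'.mdiff hv'.mdiff hv'0 hu'0, hc.mul hd, ?_⟩
  · rw [hw]; exact hv.mul hu
  · rw [hw]; exact hv'.mul hu'
  · rw [map_mul]; exact hc'.mul hd'

theorem conjChar_comp (hG : GoodLevel N Γ) {n : ℕ} [NeZero n] (σ τ : ℂ ≃+* ℂ) (φ : parGroup Γ n) :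
    conjChar hG (σ * τ) φ = conjChar hG σ (conjChar hG τ φ) := by
  obtain ⟨i, v, v', c, hv, hv0, hv', hv'0, hc, hc'⟩ := conjChar_spec hG τ φ
  set ψ := conjChar hG τ φ
  obtain ⟨a, ha, hσ⟩ := exists_unit_exponent (12 * N) σ
  obtain ⟨φ'', v'', hv'', hv''0, hn'', hp'', hser⟩ := exists_conj_twist (auxLevel12 N)
    (dvd_mul_left N 12) hG.toGalStable hG.neg_mem ha hσ (NeZero.pos n) ψ.2.1 ψ.2.2 hv' hv'0
  have h2 : conjChar hG σ ψ = ⟨φ'', hn'', hp''⟩ :=
    conjChar_eq hG ⟨i, v', v'', _, hv', hv'0, hv'', hv''0, hc', hser _ hc'⟩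
  rw [h2]
  refine conjChar_eq hG ⟨i, v, v'', c, hv, hv0, hv'', hv''0, hc, ?_⟩
  have h3 := hser _ hc'
  have e : PowerSeries.map ((σ * τ : ℂ ≃+* ℂ) : ℂ →+* ℂ) c =
      PowerSeries.map (σ : ℂ →+* ℂ) (PowerSeries.map (τ : ℂ →+* ℂ) c) := by
    ext e; simp only [PowerSeries.coeff_map]; rfl
  rw [e]; exact h3

theorem conjChar_one (hG : GoodLevel N Γ) {n : ℕ} [NeZero n] (φ : parGroup Γ n) :
    conjChar hG 1 φ = φ := by
  obtain ⟨i, v, v', c, hv, hv0, -, -, hc, -⟩ := conjChar_spec hG 1 φ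
  refine conjChar_eq hG ⟨i, v, v, c, hv, hv0, hv, hv0, hc, ?_⟩
  have e : PowerSeries.map ((1 : ℂ ≃+* ℂ) : ℂ →+* ℂ) c = c := by
    ext e; simp only [PowerSeries.coeff_map]; rfl
  rw [e]; exact hc

/-- The action of `Aut ℂ` on parabolic characters. -/
def conjAut (hG : GoodLevel N Γ) (n : ℕ) [NeZero n] : (ℂ ≃+* ℂ) →* MulAut (parGroup Γ n) where
  toFun σ :=
    { toFun := conjChar hG σ
      invFun := conjChar hG σ⁻¹
      left_inv := fun φ => by rw [← conjChar_comp, inv_mul_cancel, conjChar_one]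
      right_inv := fun φ => by rw [← conjChar_comp, mul_inv_cancel, conjChar_one]
      map_mul' := conjChar_mul hG σ }
  map_one' := by ext1 φ; exact conjChar_one hG φ
  map_mul' σ τ := by ext1 φ; exact conjChar_comp hG σ τ φ

/-- The action of an automorphism is conjugation. -/
theorem conjAut_apply (hG : GoodLevel N Γ) {n : ℕ} [NeZero n] (σ : ℂ ≃+* ℂ) (φ : parGroup Γ n) :
    conjAut hG n σ φ = conjChar hG σ φ := rfl

/-- A subgroup of finite index has finitely many characters of exponent `n`. -/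
theorem finite_homs_pow_eq_one {Γ : Subgroup SL(2, ℤ)} [Γ.FiniteIndex] (n : ℕ) [NeZero n] :
    Finite {φ : Γ →* ℂˣ // φ ^ n = 1} := by
  have : Group.FG SL(2, ℤ) := Group.fg_iff.mpr
    ⟨_, SpecialLinearGroup.SL2Z_generators, Set.toFinite _⟩
  have : Group.FG Γ := Subgroup.fg_of_index_ne_zero Γ
  obtain ⟨S, hS, hSf⟩ := Group.fg_iff.mp (inferInstance : Group.FG Γ)
  have : Finite S := hSf.to_subtype
  refine Finite.of_injective (β := S → rootsOfUnity n ℂ)
    (fun φ s => ⟨φ.1 s, by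
      rw [mem_rootsOfUnity, ← MonoidHom.pow_apply, φ.2, MonoidHom.one_apply]⟩) fun φ ψ h => ?_
  refine Subtype.ext (MonoidHom.eq_of_eqOn_dense hS fun s hs => ?_)
  exact congrArg Subtype.val (congrFun h ⟨s, hs⟩)

/-- The parabolic characters of exponent `n` of a good level form a finite group. -/
theorem finite_parGroup (hG : GoodLevel N Γ) (n : ℕ) [NeZero n] : Finite (parGroup Γ n) := by
  have : Γ.FiniteIndex := Subgroup.finiteIndex_of_le hG.gamma_le
  have := finite_homs_pow_eq_one (Γ := Γ) n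
  exact Finite.of_injective (β := {φ : Γ →* ℂˣ // φ ^ n = 1})
    (fun φ => ⟨φ.1, φ.2.1⟩) fun φ ψ h => Subtype.ext (Subtype.mk_eq_mk.1 h)

/-- The expansion of forms as a linear map. -/
def serLin (hG : GoodLevel N Γ) (k : ℤ) {φ : Γ →* ℂˣ} (hφ : IsParChar Γ φ) :
    twistSpace Γ k φ →ₗ[ℂ] (ℕ → ℂ) where
  toFun f e := PowerSeries.coeff e (qExpansion ((12 * N : ℕ) : ℝ) (f : ℍ → ℂ))
  map_add' f g := funext fun e => by
    have h := (hasExp_twist hG hφ ((f + g).2 : IsTwist Γ k φ _)).series_unique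
      ((hasExp_twist hG hφ (f.2 : IsTwist Γ k φ _)).add
        (hasExp_twist hG hφ (g.2 : IsTwist Γ k φ _)))
    rw [h]; simp
  map_smul' r f := funext fun e => by
    have h := (hasExp_twist hG hφ ((r • f).2 : IsTwist Γ k φ _)).series_unique
      (((hasExp_twist hG hφ (f.2 : IsTwist Γ k φ _)).smul r).congr_fun fun τ => rfl)
    rw [h]; simp

theorem serLin_injective (hG : GoodLevel N Γ) (k : ℤ) {φ : Γ →* ℂˣ} (hφ : IsParChar Γ φ) :
    Function.Injective (serLin hG k hφ) := fun f g h => Subtype.ext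
  ((hasExp_twist hG hφ (f.2 : IsTwist Γ k φ _)).eq_of_series (by
    have e : qExpansion ((12 * N : ℕ) : ℝ) (f : ℍ → ℂ) =
        qExpansion ((12 * N : ℕ) : ℝ) (g : ℍ → ℂ) :=
      PowerSeries.ext fun i => congrFun h i
    rw [e]
    exact hasExp_twist hG hφ (g.2 : IsTwist Γ k φ _)))

/-- Forms of weight `4` with a given multiplier form a finite-dimensional space. -/
theorem finite_twistSpace_four (hG : GoodLevel N Γ) {n : ℕ} [NeZero n] (φ : parGroup Γ n) :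
    FiniteDimensional ℂ (twistSpace Γ 4 (φ : Γ →* ℂˣ)) := by
  have hv : IsTwist Γ ((2 * 2 : ℕ) : ℤ) (φ : Γ →* ℂˣ) (twistEis (φ : Γ →* ℂˣ)) := by
    exact_mod_cast isTwist_twistEis φ.2.1 φ.2.2
  exact_mod_cast finite_twistSpace (auxLevel12 N) (gamma12_le hG) (NeZero.pos n) φ.2.1 hv
    (twistEis_ne_zero φ.2.1 φ.2.2 hG.neg_mem)

/-- The automorphisms acting trivially on characters of exponent `n` form a subgroup of finite
index. -/
theorem finiteIndex_ker_conjAut {N : ℕ} [NeZero N] {Γ : Subgroup SL(2, ℤ)} (hG : GoodLevel N Γ)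
    (n : ℕ) [NeZero n] : (conjAut hG n).ker.FiniteIndex := by
  have := finite_parGroup hG n
  have : Finite (MulAut (parGroup Γ n)) :=
    Finite.of_injective (fun e => ⇑e) DFunLike.coe_injective
  have : Finite (conjAut hG n).range := Subtype.finite
  infer_instance

/-- A form with algebraic coefficients fixed by the automorphisms fixing the character. -/
theorem exists_algebraic_form_fixed (hG : GoodLevel N Γ) {n : ℕ} [NeZero n] (φ : parGroup Γ n) :
    ∃ (v : ℍ → ℂ) (c : PowerSeries ℂ), IsTwist Γ 4 (φ : Γ →* ℂˣ) v ∧ v ≠ 0 ∧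
      HasExp (12 * N) v c ∧ (∀ e, IsAlgebraic ℚ (PowerSeries.coeff e c)) ∧
      ∀ σ : ℂ ≃+* ℂ, conjChar hG σ φ = φ → c.map (σ : ℂ →+* ℂ) = c := by
  have := finite_twistSpace_four hG φ
  set W := LinearMap.range (serLin hG 4 φ.2.2)
  have hW0 : W ≠ ⊥ := by
    intro h
    set f : twistSpace Γ 4 (φ : Γ →* ℂˣ) := ⟨_, isTwist_twistEis φ.2.1 φ.2.2⟩
    have h1 : serLin hG 4 φ.2.2 f = serLin hG 4 φ.2.2 0 := by
      rw [map_zero]; exact (Submodule.mem_bot ℂ).mp (h ▸ LinearMap.mem_range_self _ f)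
    exact twistEis_ne_zero φ.2.1 φ.2.2 hG.neg_mem
      (congrArg Subtype.val (serLin_injective hG 4 φ.2.2 h1))
  obtain ⟨w, ⟨f, rfl⟩, hw0, hfix⟩ := exists_fixed_of_stable W hW0
  have hstab : ∀ σ : ℂ ≃+* ℂ, conjChar hG σ φ = φ → ∀ u ∈ W, (fun e => σ (u e)) ∈ W := by
    rintro σ hσ _ ⟨g, rfl⟩
    by_cases hg0 : (g : ℍ → ℂ) = 0
    · refine ⟨0, funext fun e => ?_⟩
      rw [show g = 0 from Subtype.ext hg0]
      simp
    obtain ⟨a, ha, hσa⟩ := exists_unit_exponent (12 * N) σ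
    have hg4 : IsTwist Γ ((2 * 2 : ℕ) : ℤ) (φ : Γ →* ℂˣ) (g : ℍ → ℂ) := by exact_mod_cast g.2
    obtain ⟨φ', v', hv', hv'0, hn', hp', hser⟩ := exists_conj_twist (auxLevel12 N)
      (dvd_mul_left N 12) hG.toGalStable hG.neg_mem ha hσa (NeZero.pos n) φ.2.1 φ.2.2 hg4 hg0
    have hc := hasExp_twist hG φ.2.2 hg4
    have hφ' : φ' = (φ : Γ →* ℂˣ) := congrArg Subtype.val ((conjChar_eq hG
      (φ' := ⟨φ', hn', hp'⟩) ⟨2, g, v', _, hg4, hg0, hv', hv'0, hc, hser _ hc⟩).symm.trans hσ)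
    subst hφ'
    refine ⟨⟨v', by exact_mod_cast hv'⟩, funext fun e => ?_⟩
    show PowerSeries.coeff e (qExpansion _ v') = _
    rw [(hasExp_twist hG φ.2.2 hv').series_unique (hser _ hc), PowerSeries.coeff_map]
    rfl
  refine ⟨f, _, f.2, fun h => hw0 (by rw [show f = 0 from Subtype.ext h, map_zero]),
    hasExp_twist hG φ.2.2 (f.2 : IsTwist Γ 4 _ _), fun e => ?_, fun σ hσ => PowerSeries.ext fun e =>
      (PowerSeries.coeff_map _ _ _).trans (hfix σ (hstab σ hσ) e)⟩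
  have := finiteIndex_ker_conjAut hG n
  refine isAlgebraic_of_finiteIndex (conjAut hG n).ker fun σ hσ => hfix σ (hstab σ ?_) e
  rw [← conjAut_apply, (MonoidHom.mem_ker).mp hσ]
  rfl

/-- A form with algebraic coefficients. -/
theorem exists_algebraic_form (hG : GoodLevel N Γ) {n : ℕ} [NeZero n] (φ : parGroup Γ n) :
    ∃ (v : ℍ → ℂ) (c : PowerSeries ℂ), IsTwist Γ 4 (φ : Γ →* ℂˣ) v ∧ v ≠ 0 ∧
      HasExp (12 * N) v c ∧ ∀ e, IsAlgebraic ℚ (PowerSeries.coeff e c) :=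
  let ⟨v, c, hv, hv0, hc, halg, _⟩ := exists_algebraic_form_fixed hG φ
  ⟨v, c, hv, hv0, hc, halg⟩

/-- Automorphisms fixing all algebraic numbers act trivially. -/
theorem conjAut_eq_one_of_fix (hG : GoodLevel N Γ) (n : ℕ) [NeZero n] {σ : ℂ ≃+* ℂ}
    (h : ∀ x : ℂ, IsAlgebraic ℚ x → σ x = x) : conjAut hG n σ = 1 := by
  ext1 φ
  obtain ⟨v, c, hv, hv0, hc, halg⟩ := exists_algebraic_form hG φ
  have hv4 : IsTwist Γ ((2 * 2 : ℕ) : ℤ) (φ : Γ →* ℂˣ) v := by exact_mod_cast hv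
  refine conjChar_eq hG ⟨2, v, v, c, hv4, hv0, hv4, hv0, hc, ?_⟩
  convert hc using 1
  ext e
  rw [PowerSeries.coeff_map]
  exact h _ (halg e)

/-- Automorphisms agreeing on algebraic numbers act equally on characters. -/
theorem conjAut_congr (hG : GoodLevel N Γ) (n : ℕ) [NeZero n] {σ τ : ℂ ≃+* ℂ}
    (h : ∀ x : ℂ, IsAlgebraic ℚ x → σ x = τ x) : conjAut hG n σ = conjAut hG n τ := by
  have h1 : conjAut hG n (τ⁻¹ * σ) = 1 := conjAut_eq_one_of_fix hG n fun x hx => by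
    show τ.symm (σ x) = x
    rw [h x hx, RingEquiv.symm_apply_apply]
  rw [map_mul, map_inv, inv_mul_eq_one] at h1
  exact h1.symm

end FermatAgent.ES
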