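import Fermat.Agent.ES.Forms.Multiplier
import Fermat.Agent.MF.GaloisC

/-!
# Finiteness and rationality of spaces of forms with multiplier
-/

set_option autoImplicit false

open Filter Topology UpperHalfPlane CongruenceSubgroup
open scoped MatrixGroups ModularForm Manifold

noncomputable section

namespace FermatAgent.ES

/-- The zero function is a form with any multiplier. -/
theorem IsTwist.zero {Γ : Subgroup SL(2, ℤ)} {k : ℤ} {φ : Γ →* ℂˣ} :
    IsTwist Γ k φ (0 : ℍ → ℂ) where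
  mdiff := mdifferentiable_const
  slash γ := by rw [SlashAction.zero_slash]; funext τ; simp
  bdd γ := by rw [SlashAction.zero_slash]; exact const_boundedAtFilter _ _

/-- The space of forms with given weight and multiplier. -/
def twistSpace (Γ : Subgroup SL(2, ℤ)) (k : ℤ) (φ : Γ →* ℂˣ) : Submodule ℂ (ℍ → ℂ) where
  carrier := {f | IsTwist Γ k φ f}
  zero_mem' := IsTwist.zero
  add_mem' hf hg := hf.add hg
  smul_mem' c _ hf := hf.smul c

/-- Multiplying by a power series cannot lower the exponents of a series. -/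
theorem coeff_mul_ofPowerSeries_eq_zero {s : LaurentSeries ℂ} (c : PowerSeries ℂ) {B n : ℤ}
    (hs : B ≤ s.order) (hn : n < B) : (s * HahnSeries.ofPowerSeries ℤ ℂ c).coeff n = 0 := by
  rw [HahnSeries.coeff_mul]
  refine Finset.sum_eq_zero fun p hp => ?_
  rw [Finset.mem_antidiagonal] at hp
  obtain ⟨hp1, hp2, hp3⟩ := hp
  have h1 : B ≤ p.1 := hs.trans (HahnSeries.order_le_of_coeff_ne_zero hp1)
  have h2 : 0 ≤ p.2 := by
    by_contra hneg
    refine hp2 ?_
    rw [HahnSeries.ofPowerSeries_apply, HahnSeries.embDomain_of_notMem_range]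
    rintro ⟨i, hi⟩; simp at hi; omega
  omega

variable {M : ℕ} [NeZero M] {m : ℕ} (haux : AuxLevel M m)
include haux

theorem finite_trivialSpace {Γ : Subgroup SL(2, ℤ)} (hΓ : Gamma M ≤ Γ) (j : ℕ) :
    FiniteDimensional ℂ (twistSpace Γ ((2 * j : ℕ) : ℤ) 1) := by
  classical
  set P := (Finset.univ.erase (1 : GalGrp M m)).powerset
  -- the linear map `f ↦ trG (sepB_S · f / w^j)`
  set F : Finset (GalGrp M m) → (ℍ → ℂ) → ℍ → ℂ := fun S f =>
    trG M m (sepB haux S * fun τ => f τ / auxW haux τ ^ j) with hF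
  have hy : ∀ f ∈ twistSpace Γ ((2 * j : ℕ) : ℤ) 1, (fun τ => f τ / auxW haux τ ^ j) ∈ BSub M :=
    fun f hf => form_div_mem haux hΓ hf
  have hSB : ∀ S, sepB haux S ∈ BSub M := fun S => (sepB_mem haux zetaC_goodRoot_top S).1
  have hFB : ∀ S, ∀ f ∈ twistSpace Γ ((2 * j : ℕ) : ℤ) 1, F S f ∈ BSub M := fun S f hf =>
    sum_mem fun g _ => act_mem_BSub (mul_mem (hSB S) (hy f hf)) _
  -- lower bounds for the exponents
  set X : Finset (GalGrp M m) → GalGrp M m → ℕ → LaurentSeries ℂ := fun S g l =>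
    lexp M (repG M m g * cuspRep l) (sepB haux S) *
      (difLaurent M (zetaC M) (vmul M (refB haux.dvd) (repG M m g * cuspRep l))
        (vmul M (refA haux.dvd) (repG M m g * cuspRep l)) ^ j)⁻¹ with hX
  obtain ⟨B, hB⟩ : ∃ B : ℕ, ∀ S g, ∀ l ≤ m, -(B : ℤ) ≤ (X S g l).order := by
    refine ⟨∑ S, ∑ g, ∑ l ∈ Finset.range (m + 1), (-(X S g l).order).toNat, fun S g l hl => ?_⟩
    have h1 := Finset.single_le_sum (fun i _ => Nat.zero_le ((-(X S g i).order).toNat))
      (Finset.mem_range.mpr (show l < m + 1 by omega))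
    have h2 := Finset.single_le_sum (fun g' _ => Nat.zero_le
      (∑ i ∈ Finset.range (m + 1), (-(X S g' i).order).toNat)) (Finset.mem_univ g)
    have h3 := Finset.single_le_sum (fun S' _ => Nat.zero_le
      (∑ g, ∑ i ∈ Finset.range (m + 1), (-(X S' g i).order).toNat)) (Finset.mem_univ S)
    omega
  have hlow : ∀ S, ∀ f ∈ twistSpace Γ ((2 * j : ℕ) : ℤ) 1, ∀ l ≤ m, ∀ n : ℤ, n < -(B : ℤ) →
      (lexp M (cuspRep l) (F S f)).coeff n = 0 := by
    intro S f hf l hl n hn
    have hsum : lexp M (cuspRep l) (F S f) = ∑ g : GalGrp M m,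
        lexp M (repG M m g * cuspRep l) (sepB haux S * fun τ => f τ / auxW haux τ ^ j) := by
      refine lexp_eq ?_
      simp only [hF, trG, act_sum]
      refine HasLExp.sum _ fun g _ => ?_
      rw [← act_mul]
      exact hasLExp_lexp (mul_mem (hSB S) (hy f hf)) _
    rw [hsum, HahnSeries.coeff_sum]
    refine Finset.sum_eq_zero fun g _ => ?_
    set γ := repG M m g * cuspRep l with hγ
    have hadm := (adm_ref haux).mul γ
    have hexp := HasExp.exists_of_bounded (periodic_slash_of_trivial hΓ hf γ)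
      (hf.mdiff.slash _ _) (hf.bdd γ)
    have e : lexp M γ (sepB haux S * fun τ => f τ / auxW haux τ ^ j) =
        X S g l * HahnSeries.ofPowerSeries ℤ ℂ
          (qExpansion (M : ℝ) (f ∣[((2 * j : ℕ) : ℤ)] γ)) := by
      refine lexp_eq ?_
      rw [act_mulFun, hX]
      simp only
      rw [mul_assoc]
      refine (hasLExp_lexp (hSB S) γ).mul ?_
      refine ((((hasLExp_dif (M := M) hadm.left hadm.right).pow j).inv
        (fun τ => pow_ne_zero _ (hadm.dif_ne_zero τ)) (pow_ne_zero _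
          (leadUnit_difLaurent zetaC_goodRoot_top hadm.left hadm.right hadm.ne
            hadm.ne_neg).ne_zero)).mul (HasLExp.of_exp hexp)).congr_fun fun τ => ?_
      simp only [act_apply, Pi.mul_apply, Pi.inv_apply, Pi.pow_apply, ModularForm.SL_slash_apply,
        auxW, dif_smul, mul_pow, ← pow_mul, zpow_neg, zpow_natCast]
      field_simp
    rw [e]
    exact coeff_mul_ofPowerSeries_eq_zero _ (hB S g l hl) hn
  -- the coefficient map
  let Φ : twistSpace Γ ((2 * j : ℕ) : ℤ) 1 →ₗ[ℂ]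
      (Finset (GalGrp M m) × Fin (m + 1) × Fin (B + 1) → ℂ) :=
    { toFun := fun f x => (lexp M (cuspRep x.2.1) (F x.1 f)).coeff (-((x.2.2 : ℕ) : ℤ))
      map_add' := fun f g => funext fun x => by
        simp only [Pi.add_apply, ← HahnSeries.coeff_add]
        congr 2
        refine (congrArg (lexp M (cuspRep x.2.1)) ?_).trans
          ((expHom (M := M) _).map_add ⟨_, hFB x.1 f f.2⟩ ⟨_, hFB x.1 g g.2⟩)
        show F x.1 ((f : ℍ → ℂ) + (g : ℍ → ℂ)) = F x.1 f + F x.1 g
        simp only [hF, trG, ← Finset.sum_add_distrib, ← act_add]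
        refine Finset.sum_congr rfl fun k _ => congrArg _ (funext fun τ => ?_)
        simp only [Pi.mul_apply, Pi.add_apply, add_div, mul_add]
      map_smul' := fun c f => funext fun x => by
        have e : F x.1 (c • (f : ℍ → ℂ)) = (fun _ => c) * F x.1 f := by
          simp only [hF, trG, Finset.mul_sum]
          refine Finset.sum_congr rfl fun k _ => funext fun τ => ?_
          simp only [act_apply, Pi.mul_apply, Pi.smul_apply, smul_eq_mul]
          ring
        simp only [RingHom.id_apply, Pi.smul_apply, smul_eq_mul, Submodule.coe_smul]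
        rw [e]
        have hl : lexp M (cuspRep x.2.1) ((fun _ : ℍ => c) * F x.1 f) =
            HahnSeries.C c * lexp M (cuspRep x.2.1) (F x.1 f) := by
          refine lexp_eq ?_
          rw [act_mulFun, act_const]
          exact (HasLExp.const c).mul (hasLExp_lexp (hFB x.1 f f.2) _)
        rw [hl, HahnSeries.C_apply, HahnSeries.coeff_single_mul, sub_zero] }
  refine FiniteDimensional.of_injective Φ fun f g hfg => sub_eq_zero.mp ?_
  set h := f - g with hh
  have h0 : Φ h = 0 := by rw [hh, map_sub, hfg, sub_self]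
  have hz : ∀ S, F S h = 0 := by
    intro S
    have hinv : ∀ δ ∈ Gamma m, act δ (F S h) = F S h := fun δ hδ =>
      trG_invariant (mul_mem (hSB S) (hy h h.2)) hδ
    refine lexp_injective (hFB S h h.2) (zero_mem _) (γ := 1) ?_
    rw [lexp_eq (γ := 1) (f := (0 : ℍ → ℂ)) HasLExp.zero]
    ext n
    refine AddSubgroup.mem_bot.mp ((polControlled_of_invariant haux zetaC_goodRoot_top
      (hFB S h h.2) hinv (fun l _ => fun _ => trivial)).2 ⊥ (fun a _ x hx => by simp_all)
      (fun l hl k hk => ?_) ?_ 1 n)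
    · rw [AddSubgroup.mem_bot]
      by_cases hkB : k < -(B : ℤ)
      · exact hlow S h h.2 l hl k hkB
      · have := congrFun h0 (S, ⟨l, by omega⟩, ⟨(-k).toNat, by omega⟩)
        simpa [Φ, Int.toNat_of_nonneg (show (0 : ℤ) ≤ -k by omega)] using this
    · rw [AddSubgroup.mem_bot]
      have := congrFun h0 (S, 0, 0)
      simpa [Φ, cuspRep] using this
  apply Subtype.ext
  funext τ
  have e := congrFun (eq_sum_sepA_mul_trG haux (hy h h.2)) τ
  simp only [Finset.sum_apply, Pi.mul_apply] at e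
  rw [Finset.sum_eq_zero (fun S _ => by
    rw [show trG M m (sepB haux S * fun τ => (h : ℍ → ℂ) τ / auxW haux τ ^ j) = 0 from hz S]
    simp)] at e
  exact (div_eq_zero_iff.mp e).resolve_right (pow_ne_zero _ (auxW_ne_zero haux τ))

/-- A space of forms with multiplier of finite order is finite-dimensional once nonzero. -/
theorem finite_twistSpace {Γ : Subgroup SL(2, ℤ)} (hΓ : Gamma M ≤ Γ) {i n : ℕ} (hn : 0 < n)
    {φ : Γ →* ℂˣ} (hφn : φ ^ n = 1) {v : ℍ → ℂ} (hv : IsTwist Γ ((2 * i : ℕ) : ℤ) φ v)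
    (hv0 : v ≠ 0) : FiniteDimensional ℂ (twistSpace Γ ((2 * i : ℕ) : ℤ) φ) := by
  have := finite_trivialSpace haux hΓ (n * i)
  have hprod : ∀ f ∈ twistSpace Γ ((2 * i : ℕ) : ℤ) φ,
      f * v ^ (n - 1) ∈ twistSpace Γ ((2 * (n * i) : ℕ) : ℤ) 1 := by
    intro f hf
    have h := (hf : IsTwist Γ _ φ f).mul (hv.pow (n - 1))
    have e : φ * φ ^ (n - 1) = 1 := MonoidHom.ext fun γ => by
      have := DFunLike.congr_fun hφn γ
      simp only [MonoidHom.mul_apply, MonoidHom.pow_apply, MonoidHom.one_apply] at this ⊢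
      rw [← pow_succ', Nat.sub_add_cancel hn, this]
    have hw : ((2 * i : ℕ) : ℤ) + ((n - 1 : ℕ) : ℤ) * ((2 * i : ℕ) : ℤ) =
        ((2 * (n * i) : ℕ) : ℤ) := by
      obtain ⟨k, rfl⟩ : ∃ k, n = k + 1 := ⟨n - 1, by omega⟩
      push_cast [Nat.add_sub_cancel]; ring
    rw [e, hw] at h
    exact h
  let Ψ : twistSpace Γ ((2 * i : ℕ) : ℤ) φ →ₗ[ℂ] twistSpace Γ ((2 * (n * i) : ℕ) : ℤ) 1 :=
    { toFun := fun f => ⟨_, hprod f f.2⟩
      map_add' := fun f g => Subtype.ext (add_mul _ _ _)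
      map_smul' := fun c f => Subtype.ext (smul_mul_assoc c _ _) }
  refine FiniteDimensional.of_injective Ψ fun f g hfg => Subtype.ext ?_
  have h : ((f : ℍ → ℂ) - (g : ℍ → ℂ)) * v ^ (n - 1) = 0 := by
    have h' : (f : ℍ → ℂ) * v ^ (n - 1) = (g : ℍ → ℂ) * v ^ (n - 1) := congrArg Subtype.val hfg
    rw [sub_mul, h', sub_self]
  obtain ⟨τ, hτ⟩ := Function.ne_iff.mp hv0
  have hd := UpperHalfPlane.mdifferentiable_iff.mp ((f.2 : IsTwist Γ _ φ (f : ℍ → ℂ)).mdiff.sub
    (g.2 : IsTwist Γ _ φ (g : ℍ → ℂ)).mdiff)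
  have hvc : ContinuousAt (v ∘ ofComplex) (τ : ℂ) :=
    (UpperHalfPlane.mdifferentiable_iff.mp hv.mdiff).continuousOn.continuousAt
      (isOpen_upperHalfPlaneSet.mem_nhds τ.im_pos)
  have hev : (((f : ℍ → ℂ) - (g : ℍ → ℂ)) ∘ ofComplex) =ᶠ[𝓝 (τ : ℂ)] 0 := by
    filter_upwards [hvc.eventually_ne (show (v ∘ ofComplex) (τ : ℂ) ≠ 0 by
      simpa [ofComplex_apply] using hτ)] with z hz
    exact (mul_eq_zero.mp (congrFun h (ofComplex z))).resolve_right (pow_ne_zero _ hz)
  funext σ'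
  have := (hd.analyticOnNhd isOpen_upperHalfPlaneSet).eqOn_zero_of_preconnected_of_eventuallyEq_zero
    (convex_halfSpace_im_gt 0).isPreconnected τ.im_pos hev σ'.im_pos
  simpa [ofComplex_apply, sub_eq_zero] using this

omit haux

/-- A number with finitely many conjugates under `Aut ℂ` is algebraic. -/
theorem isAlgebraic_of_finite_orbit {x : ℂ}
    (h : (Set.range fun σ : ℂ ≃+* ℂ => σ x).Finite) : IsAlgebraic ℚ x := by
  by_contra hx
  have hmem : ∀ k : ℕ, x + k ∈ Set.range fun σ : ℂ ≃+* ℂ => σ x := fun k => by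
    obtain ⟨σ, -, hσ⟩ := MF.exists_translate hx (k : ℚ)
    exact ⟨σ, by simpa using hσ⟩
  exact Set.infinite_range_of_injective (f := fun k : ℕ => x + (k : ℂ))
    (fun a b hab => by simpa using hab) (h.subset (Set.range_subset_iff.mpr hmem))

/-- Finitely many coordinates separate a finite-dimensional space of expansions. -/
theorem exists_separating {ι : Type*} (W : Submodule ℂ (ι → ℂ)) [FiniteDimensional ℂ W] :
    ∃ I : Finset ι, ∀ w ∈ W, (∀ e ∈ I, w e = 0) → w = 0 := by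
  classical
  suffices H : ∀ U : Submodule ℂ (ι → ℂ), U ≤ W →
      ∃ I : Finset ι, ∀ w ∈ U, (∀ e ∈ I, w e = 0) → w = 0 from H W le_rfl
  intro U hU
  have : FiniteDimensional ℂ U := Submodule.finiteDimensional_of_le hU
  induction hd : Module.finrank ℂ U using Nat.strong_induction_on generalizing U with
  | _ d ih =>
  by_cases hU0 : U = ⊥
  · exact ⟨∅, fun w hw _ => by simpa [hU0] using hw⟩
  obtain ⟨u, hu, hu0⟩ := U.ne_bot_iff.mp hU0
  obtain ⟨e, he⟩ := Function.ne_iff.mp hu0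
  set U' := U ⊓ LinearMap.ker (LinearMap.proj (R := ℂ) (φ := fun _ : ι => ℂ) e)
  have : FiniteDimensional ℂ U' := Submodule.finiteDimensional_of_le inf_le_left
  have hlt : Module.finrank ℂ U' < d := by
    rw [← hd]
    refine Submodule.finrank_lt_finrank_of_lt (lt_of_le_of_ne inf_le_left fun heq => he ?_)
    have : u ∈ U' := heq ▸ hu
    exact this.2
  obtain ⟨I, hI⟩ := ih _ hlt U' (inf_le_left.trans hU)
    (Submodule.finiteDimensional_of_le inf_le_left) rfl
  exact ⟨insert e I, fun w hw h0 => hI w ⟨hw, h0 e (Finset.mem_insert_self _ _)⟩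
    fun k hk => h0 k (Finset.mem_insert_of_mem hk)⟩

/-- A finite-dimensional space of expansions has a vector fixed by its stabiliser. -/
theorem exists_fixed_of_stable {ι : Type*} (W : Submodule ℂ (ι → ℂ)) [FiniteDimensional ℂ W]
    (hW0 : W ≠ ⊥) :
    ∃ w ∈ W, w ≠ 0 ∧ ∀ σ : ℂ ≃+* ℂ, (∀ u ∈ W, (fun e => σ (u e)) ∈ W) →
      ∀ e, σ (w e) = w e := by
  classical
  obtain ⟨I, hI⟩ := exists_separating W
  set supp : (ι → ℂ) → Finset ι := fun w => I.filter fun e => w e ≠ 0
  obtain ⟨w0, ⟨hw0, hw0ne⟩, hmin⟩ : ∃ w, (w ∈ W ∧ w ≠ 0) ∧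
      ∀ u, (u ∈ W ∧ u ≠ 0) → (supp w).card ≤ (supp u).card := by
    obtain ⟨u, hu, hu0⟩ := W.ne_bot_iff.mp hW0
    have hex : ∃ c, ∃ w, (w ∈ W ∧ w ≠ 0) ∧ (supp w).card = c := ⟨_, u, ⟨hu, hu0⟩, rfl⟩
    obtain ⟨w, hw, hc⟩ := Nat.find_spec hex
    exact ⟨w, hw, fun u hu => hc ▸ Nat.find_le ⟨u, hu, rfl⟩⟩
  obtain ⟨e0, he0, he0ne⟩ : ∃ e ∈ I, w0 e ≠ 0 := by
    by_contra hall
    push Not at hall
    exact hw0ne (hI w0 hw0 hall)
  set w1 : ι → ℂ := (w0 e0)⁻¹ • w0 with hw1
  have hw1W : w1 ∈ W := W.smul_mem _ hw0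
  have hw1e : w1 e0 = 1 := by simp [hw1, he0ne]
  refine ⟨w1, hw1W, fun h => one_ne_zero (hw1e ▸ congrFun h e0), fun σ hσ => ?_⟩
  have hu : (fun e => σ (w1 e)) - w1 ∈ W := W.sub_mem (hσ w1 hw1W) hw1W
  suffices h : (fun e => σ (w1 e)) - w1 = 0 from fun e => sub_eq_zero.mp (congrFun h e)
  by_contra hne
  have hsub : supp ((fun e => σ (w1 e)) - w1) ⊂ supp w0 := by
    refine Finset.ssubset_iff_of_subset (fun e he => ?_) |>.mpr ⟨e0, ?_, ?_⟩
    · simp only [supp, Finset.mem_filter] at he ⊢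
      exact ⟨he.1, fun h0 => he.2 (by simp [hw1, h0])⟩
    · simp [supp, he0, he0ne]
    · simp [supp, hw1e]
  exact absurd (Finset.card_lt_card hsub) (not_lt.mpr (hmin _ ⟨hu, hne⟩))

/-- Numbers fixed by a subgroup of finite index of the automorphisms are algebraic. -/
theorem isAlgebraic_of_finiteIndex (H : Subgroup (ℂ ≃+* ℂ)) [H.FiniteIndex] {x : ℂ}
    (hx : ∀ σ ∈ H, σ x = x) : IsAlgebraic ℚ x := by
  refine isAlgebraic_of_finite_orbit ?_
  have : Finite ((ℂ ≃+* ℂ) ⧸ H) := H.finite_quotient_of_finiteIndex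
  refine (Set.finite_range (Quotient.lift (s := QuotientGroup.leftRel H)
    (fun σ : ℂ ≃+* ℂ => σ x) ?_ : (ℂ ≃+* ℂ) ⧸ H → ℂ)).subset ?_
  · intro σ τ hστ
    rw [← Quotient.eq_iff_equiv] at hστ
    have h2 := congrArg σ (hx _ (QuotientGroup.eq.mp hστ))
    rw [show σ ((σ⁻¹ * τ) x) = τ x from σ.apply_symm_apply (τ x)] at h2
    exact h2.symm
  · rintro _ ⟨σ, rfl⟩
    exact ⟨QuotientGroup.mk σ, rfl⟩

end FermatAgent.ES
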