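import Fermat.Agent.ES.Forms.Conj
import Mathlib.Analysis.SpecialFunctions.Pow.Continuity

/-!
# Expansions of roots
-/

set_option autoImplicit false

open Filter Topology UpperHalfPlane
open scoped Manifold

noncomputable section

namespace FermatAgent.ES

variable {M : ℕ} [NeZero M]

omit [NeZero M] in
/-- A Laurent expansion which is a power series is an expansion. -/
theorem hasExp_of_hasLExp_ps {f : ℍ → ℂ} {d : PowerSeries ℂ}
    (h : HasLExp M f (HahnSeries.ofPowerSeries ℤ ℂ d)) : HasExp M f d := by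
  obtain ⟨r, c, hc, hs⟩ := h
  have hs' := congrArg (fun s => HahnSeries.single (r : ℤ) (1 : ℂ) * s) hs
  simp only [← mul_assoc, HahnSeries.single_mul_single, add_neg_cancel, mul_one] at hs'
  rw [← HahnSeries.ofPowerSeries_X_pow, ← map_mul] at hs'
  simp only [HahnSeries.single_zero_one, one_mul] at hs'
  have hcd : c = PowerSeries.X ^ r * d := (HahnSeries.ofPowerSeries_injective hs').symm
  exact (hc.div_qm hcd).congr_fun fun τ => by
    rw [mul_div_cancel_left₀ _ (pow_ne_zero _ (qm_ne_zero M τ))]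

theorem eq_of_eq_of_im_gt {f g : ℍ → ℂ} (hf : MDiff f) (hg : MDiff g) {B : ℝ}
    (h : ∀ τ : ℍ, B < τ.im → f τ = g τ) (τ : ℍ) : f τ = g τ := by
  have hfa : AnalyticOnNhd ℂ (f ∘ ofComplex) {z : ℂ | 0 < z.im} :=
    (UpperHalfPlane.mdifferentiable_iff.mp hf).analyticOnNhd isOpen_upperHalfPlaneSet
  have hga : AnalyticOnNhd ℂ (g ∘ ofComplex) {z : ℂ | 0 < z.im} :=
    (UpperHalfPlane.mdifferentiable_iff.mp hg).analyticOnNhd isOpen_upperHalfPlaneSet
  set z0 : ℂ := ((|B| + 1 : ℝ) : ℂ) * Complex.I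
  have hz0 : B < z0.im ∧ 0 < z0.im := by
    have := le_abs_self B
    have := abs_nonneg B
    simp [z0]; constructor <;> linarith
  have hev : (f ∘ ofComplex) =ᶠ[𝓝 z0] (g ∘ ofComplex) := by
    filter_upwards [(isOpen_lt continuous_const Complex.continuous_im).mem_nhds hz0.1,
      isOpen_upperHalfPlaneSet.mem_nhds hz0.2] with z hz hz'
    simp only [Function.comp_apply, ofComplex_apply_of_im_pos hz']
    exact h _ hz
  have := hfa.eqOn_of_preconnected_of_eventuallyEq hga (convex_halfSpace_im_gt 0).isPreconnected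
    hz0.2 hev τ.im_pos
  simpa [ofComplex_apply] using this

/-- A continuous function whose `n`-th power has a nonzero limit at `∞` has one itself, and
is eventually a constant times the principal root. -/
theorem exists_tendsto_of_pow {F : ℍ → ℂ} (hF : Continuous F) {n : ℕ} (hn : 0 < n) {c : ℂ}
    (hc : c ≠ 0) (h : Tendsto (fun τ => F τ ^ n) atImInfty (𝓝 c)) :
    ∃ a, a ≠ 0 ∧ Tendsto F atImInfty (𝓝 a) ∧
      ∀ᶠ τ in atImInfty, F τ = a * (F τ ^ n / c) ^ ((n : ℂ)⁻¹) := by
  have hlim : Tendsto (fun τ => F τ ^ n / c) atImInfty (𝓝 1) := by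
    have := h.div_const c
    rwa [div_self hc] at this
  obtain ⟨B, hB⟩ : ∃ B : ℝ, ∀ τ : ℍ, B ≤ τ.im → ‖F τ ^ n / c - 1‖ < 1 / 2 := by
    have h2 := Metric.tendsto_nhds.mp hlim (1 / 2) (by norm_num)
    rw [Filter.Eventually, UpperHalfPlane.atImInfty_mem] at h2
    obtain ⟨B, hB⟩ := h2
    exact ⟨B, fun τ hτ => by simpa [dist_eq_norm] using hB τ hτ⟩
  set B' := max B 0
  set S : Set ℂ := {z : ℂ | B' < z.im}
  have hSim : ∀ z ∈ S, 0 < z.im := fun z hz => (le_max_right B 0).trans_lt hz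
  set R : ℂ → ℂ := fun z => (F (ofComplex z) ^ n / c) ^ ((n : ℂ)⁻¹)
  have hslit : ∀ z ∈ S, F (ofComplex z) ^ n / c ∈ Complex.slitPlane := by
    intro z hz
    have h2 := hB (ofComplex z) (by
      rw [ofComplex_apply_of_im_pos (hSim z hz)]
      exact ((le_max_left B 0).trans_lt hz).le)
    left
    have h3 := (Complex.abs_re_le_norm _).trans_lt h2
    rw [Complex.sub_re, Complex.one_re, abs_lt] at h3
    linarith [h3.1]
  have hRn : ∀ z ∈ S, R z ^ n = F (ofComplex z) ^ n / c := fun z _ => by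
    simp only [R, Complex.cpow_nat_inv_pow _ hn.ne']
  have hR0 : ∀ z ∈ S, R z ≠ 0 := fun z hz h0 => by
    have := hRn z hz
    rw [h0, zero_pow hn.ne'] at this
    exact Complex.slitPlane_ne_zero (hslit z hz) this.symm
  have hFc : ContinuousOn (F ∘ ofComplex) S := by
    refine hF.comp_continuousOn fun z hz => ?_
    exact ((UpperHalfPlane.mdifferentiableAt_ofComplex (hSim z hz)).continuousAt).continuousWithinAt
  have hratio : ContinuousOn (fun z => (F ∘ ofComplex) z / R z) S := by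
    refine hFc.div (fun z hz => ?_) hR0
    exact (((hFc.pow n).div_const c).continuousWithinAt hz).cpow continuousWithinAt_const
      (hslit z hz)
  have hfin : ((fun z => (F ∘ ofComplex) z / R z) '' S).Finite := by
    refine ((Polynomial.nthRootsFinset n c).finite_toSet).subset ?_
    rintro _ ⟨z, hz, rfl⟩
    have h1 : F (ofComplex z) ^ n ≠ 0 := fun h0 => by
      have := hslit z hz
      rw [h0, zero_div] at this
      exact Complex.slitPlane_ne_zero this rfl
    simp only [Finset.mem_coe, Polynomial.mem_nthRootsFinset hn, Function.comp_apply, div_pow,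
      hRn z hz]
    field_simp
  have hconst :=
    ((convex_halfSpace_im_gt B').isPreconnected.image _ hratio).isDiscrete_iff_subsingleton.mp
      hfin.isDiscrete
  set z0 : ℂ := ((|B'| + 1 : ℝ) : ℂ) * Complex.I
  have hz0 : z0 ∈ S := by
    have := le_abs_self B'
    simp [S, z0]; linarith
  set a := (F ∘ ofComplex) z0 / R z0 with ha
  have hev : ∀ᶠ τ : ℍ in atImInfty, F τ = a * (F τ ^ n / c) ^ ((n : ℂ)⁻¹) := by
    rw [Filter.Eventually, UpperHalfPlane.atImInfty_mem]
    refine ⟨B' + 1, fun τ hτ => ?_⟩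
    have hτS : (τ : ℂ) ∈ S := by
      show B' < τ.im
      linarith
    have e := hconst (Set.mem_image_of_mem _ hτS) (Set.mem_image_of_mem _ hz0)
    simp only [Function.comp_apply, R, ofComplex_apply] at e
    have h0 := hR0 _ hτS
    simp only [R, ofComplex_apply] at h0
    show F τ = _
    rw [ha, ← show F τ / (F τ ^ n / c) ^ ((n : ℂ)⁻¹) = (F ∘ ofComplex) z0 / R z0 from e,
      div_mul_cancel₀ _ h0]
  have hT : Tendsto F atImInfty (𝓝 a) := by
    refine Tendsto.congr' (hev.mono fun τ hτ => hτ.symm) ?_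
    have h1 := (hlim.cpow (tendsto_const_nhds (x := (n : ℂ)⁻¹)) (Or.inl (by simp))).const_mul a
    rwa [Complex.one_cpow, mul_one] at h1
  refine ⟨a, fun h0 => hc ?_, hT, hev⟩
  have h1 := hT.pow n
  rw [h0, zero_pow hn.ne'] at h1
  exact tendsto_nhds_unique h h1

/-- An `n`-th root of a function with an expansion which is an `n`-th power has an expansion. -/
theorem exists_exp_of_pow {g : ℍ → ℂ} (hg : MDiff g) {n : ℕ} (hn : 0 < n) {c0 : PowerSeries ℂ}
    (hc0 : c0 ≠ 0) (h : HasExp M (fun τ => g τ ^ n) (c0 ^ n)) :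
    ∃ ω : ℂ, ω ^ n = 1 ∧ HasExp M g (PowerSeries.C ω * c0) := by
  set q := c0.order.toNat
  set d := c0.divXPowOrder
  have hd : c0 = PowerSeries.X ^ q * d := PowerSeries.X_pow_order_mul_divXPowOrder.symm
  have hd0 : PowerSeries.constantCoeff d ≠ 0 :=
    fun h0 => hc0 (PowerSeries.constantCoeff_divXPowOrder_eq_zero_iff.mp h0)
  set G : ℍ → ℂ := fun τ => g τ / qm M τ ^ q with hG
  have hGd : MDiff G := by
    have h2 := UpperHalfPlane.mdifferentiable_iff.mp (HasExp.qm_pow (M := M) q).mdifferentiable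
    rw [UpperHalfPlane.mdifferentiable_iff] at hg ⊢
    exact (hg.div h2 fun z _ => pow_ne_zero _ (qm_ne_zero M _)).congr fun z _ => rfl
  have hu : HasExp M (fun τ => G τ ^ n) (d ^ n) :=
    (h.div_qm (c' := d ^ n) (r := q * n) (by rw [hd, mul_pow, ← pow_mul])).congr_fun fun τ => by
      simp only [hG, div_pow, ← pow_mul]
  set a := PowerSeries.constantCoeff d with ha
  obtain ⟨b, -, hGlim, hev⟩ := exists_tendsto_of_pow hGd.continuous hn (pow_ne_zero n hd0)
    (by simpa [map_pow] using hu.tendsto_atImInfty)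
  rw [Filter.Eventually, UpperHalfPlane.atImInfty_mem] at hev
  obtain ⟨B, hB⟩ := hev
  have hper : ∀ τ : ℍ, B < τ.im → G ((M : ℝ) +ᵥ τ) = G τ := fun τ hτ => by
    rw [hB ((M : ℝ) +ᵥ τ) (by rw [UpperHalfPlane.vadd_im]; exact hτ.le),
      (HasLExp.of_exp hu).periodic τ, ← hB τ hτ.le]
  have hGshift : MDiff (fun τ : ℍ => G ((M : ℝ) +ᵥ τ)) := by
    rw [UpperHalfPlane.mdifferentiable_iff] at hGd ⊢
    refine (hGd.comp (differentiableOn_id.add_const ((M : ℝ) : ℂ)) (fun z hz => by
      simpa using hz)).congr fun z hz => ?_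
    have hz' : 0 < (z + ((M : ℝ) : ℂ)).im := by simpa using hz
    simp only [Function.comp_apply, id, ofComplex_apply_of_im_pos hz, ofComplex_apply_of_im_pos hz']
    congr 1
    exact UpperHalfPlane.ext (by simp [add_comm])
  have hperall : ∀ τ : ℍ, G ((M : ℝ) +ᵥ τ) = G τ := eq_of_eq_of_im_gt hGshift hGd hper
  have hperC : Function.Periodic (G ∘ ofComplex) (M : ℝ) :=
    Curve.periodic_comp_ofComplex_of_vadd hperall
  have hGb : IsBoundedAtImInfty G := hGlim.isBigO_one ℝ
  set e := qExpansion (M : ℝ) G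
  have he : HasExp M G e := HasExp.exists_of_bounded hperC hGd hGb
  have hen : e ^ n = d ^ n := ((he.pow n).congr_fun (fun τ => rfl)).series_unique hu
  set L := HahnSeries.ofPowerSeries ℤ ℂ
  have hd0' : L d ≠ 0 := by
    rw [Ne, map_eq_zero_iff _ HahnSeries.ofPowerSeries_injective]
    rintro h0; exact hd0 (by simp [ha, h0])
  obtain ⟨z1, hz1⟩ : ∃ z : ℂ, IsPrimitiveRoot z n := ⟨_, Complex.isPrimitiveRoot_exp n hn.ne'⟩
  have hζ : IsPrimitiveRoot (HahnSeries.C z1 : LaurentSeries ℂ) n :=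
    hz1.map_of_injective (f := (HahnSeries.C : ℂ →+* _)) (RingHom.injective _)
  have : NeZero n := ⟨hn.ne'⟩
  obtain ⟨i, -, hi⟩ := hζ.eq_pow_of_pow_eq_one (ξ := L e / L d) (by
    rw [div_pow, ← map_pow, ← map_pow, hen, div_self (by rw [map_pow]; exact pow_ne_zero _ hd0')])
  refine ⟨z1 ^ i, ?_, ?_⟩
  · rw [← pow_mul, mul_comm, pow_mul, hz1.pow_eq_one, one_pow]
  · have hed : e = PowerSeries.C (z1 ^ i) * d := by
      refine HahnSeries.ofPowerSeries_injective (Γ := ℤ) ?_
      rw [map_mul, HahnSeries.ofPowerSeries_C, map_pow]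
      change L e = _ * L d
      rw [hi, div_mul_cancel₀ _ hd0']
    have := ((HasExp.qm_pow (M := M) q).mul he).congr_fun (g := g) (fun τ => by
      simp [hG, mul_div_cancel₀, qm_ne_zero])
    rwa [hed, ← mul_assoc, mul_comm (PowerSeries.X ^ q), mul_assoc, ← hd] at this

end FermatAgent.ES
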