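import Mathlib.NumberTheory.ModularForms.EisensteinSeries.MDifferentiable
import Mathlib.NumberTheory.ModularForms.EisensteinSeries.IsBoundedAtImInfty
import Mathlib.NumberTheory.ModularForms.Basic
import Mathlib.Analysis.Normed.Group.Tannery

/-!
# Modular forms with a multiplier, and their existence

For a character `φ` of finite order of `Γ ∋ -1` killing the elements of trace `±2` the series
`∑ φ(γ)⁻¹ (c τ + d)⁻⁴` over the bottom rows `(c, d)` of elements of `Γ` is a nonzero form of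
weight `4` with multiplier `φ`.
-/

set_option autoImplicit false

open Filter Topology UpperHalfPlane CongruenceSubgroup EisensteinSeries
open scoped MatrixGroups ModularForm Manifold

noncomputable section

namespace FermatAgent.ES

variable {Γ : Subgroup SL(2, ℤ)}

/-- Characters killing the elements of trace `±2`. -/
def IsParChar (Γ : Subgroup SL(2, ℤ)) (φ : Γ →* ℂˣ) : Prop :=
  ∀ γ : Γ, ((γ : SL(2, ℤ)) : Matrix (Fin 2) (Fin 2) ℤ).trace ^ 2 = 4 → φ γ = 1

/-- Holomorphic forms with multiplier `φ`, bounded at all cusps. -/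
structure IsTwist (Γ : Subgroup SL(2, ℤ)) (k : ℤ) (φ : Γ →* ℂˣ) (f : ℍ → ℂ) : Prop where
  mdiff : MDiff f
  slash : ∀ γ : Γ, f ∣[k] (γ : SL(2, ℤ)) = fun τ => (φ γ : ℂ) * f τ
  bdd : ∀ γ : SL(2, ℤ), IsBoundedAtImInfty (f ∣[k] γ)

/-- Products of forms with multiplier. -/
theorem IsTwist.mul {k l : ℤ} {φ ψ : Γ →* ℂˣ} {f g : ℍ → ℂ} (hf : IsTwist Γ k φ f)
    (hg : IsTwist Γ l ψ g) : IsTwist Γ (k + l) (φ * ψ) (f * g) where
  mdiff := hf.mdiff.mul hg.mdiff
  slash γ := by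
    rw [ModularForm.mul_slash_SL2, hf.slash γ, hg.slash γ]
    funext τ
    simp only [Pi.mul_apply, MonoidHom.mul_apply, Units.val_mul]
    ring
  bdd γ := by rw [ModularForm.mul_slash_SL2]; exact (hf.bdd γ).mul (hg.bdd γ)

/-- The constant `1` is a form of weight zero. -/
theorem isTwist_one : IsTwist Γ 0 1 (1 : ℍ → ℂ) where
  mdiff := mdifferentiable_const
  slash γ := by funext τ; simp [ModularForm.SL_slash_apply]
  bdd γ := by
    have : ((1 : ℍ → ℂ) ∣[(0 : ℤ)] γ) = fun _ => (1 : ℂ) := by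
      funext τ; simp [ModularForm.SL_slash_apply]
    rw [this]; exact const_boundedAtFilter _ _

/-- Powers of forms with multiplier. -/
theorem IsTwist.pow {k : ℤ} {φ : Γ →* ℂˣ} {f : ℍ → ℂ} (hf : IsTwist Γ k φ f) (n : ℕ) :
    IsTwist Γ (n * k) (φ ^ n) (f ^ n) := by
  induction n with
  | zero =>
    rw [pow_zero φ, pow_zero f, Nat.cast_zero, zero_mul]
    exact isTwist_one
  | succ n ih =>
    have := ih.mul hf
    rw [pow_succ φ, pow_succ f, Nat.cast_succ, add_mul, one_mul]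
    exact this

/-- Scalar multiples of forms with multiplier. -/
theorem IsTwist.smul {k : ℤ} {φ : Γ →* ℂˣ} {f : ℍ → ℂ} (hf : IsTwist Γ k φ f) (c : ℂ) :
    IsTwist Γ k φ (c • f) where
  mdiff := hf.mdiff.const_smul c
  slash γ := by
    rw [ModularForm.SL_smul_slash, hf.slash γ]
    funext τ
    simp only [Pi.smul_apply, smul_eq_mul]
    ring
  bdd γ := by rw [ModularForm.SL_smul_slash]; exact (hf.bdd γ).smul c

/-- Sums of forms with the same weight and multiplier. -/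
theorem IsTwist.add {k : ℤ} {φ : Γ →* ℂˣ} {f g : ℍ → ℂ} (hf : IsTwist Γ k φ f)
    (hg : IsTwist Γ k φ g) : IsTwist Γ k φ (f + g) where
  mdiff := hf.mdiff.add hg.mdiff
  slash γ := by
    rw [SlashAction.add_slash, hf.slash γ, hg.slash γ]
    funext τ
    simp only [Pi.add_apply]
    ring
  bdd γ := by rw [SlashAction.add_slash]; exact (hf.bdd γ).add (hg.bdd γ)

/-- A nonzero form determines its multiplier. -/
theorem IsTwist.mult_unique {k : ℤ} {φ ψ : Γ →* ℂˣ} {f : ℍ → ℂ} (h : IsTwist Γ k φ f)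
    (h' : IsTwist Γ k ψ f) (hf : f ≠ 0) : φ = ψ := by
  obtain ⟨τ, hτ⟩ := Function.ne_iff.mp hf
  refine MonoidHom.ext fun γ => Units.ext ?_
  have e := congrFun ((h.slash γ).symm.trans (h'.slash γ)) τ
  exact mul_right_cancel₀ hτ e

/-- Bottom rows of elements of `Γ`. -/
abbrev BotRow (Γ : Subgroup SL(2, ℤ)) : Type :=
  {v : Fin 2 → ℤ // ∃ γ : Γ, (γ : SL(2, ℤ)) 1 = v}

theorem eq_shear_of_row_eq {γ γ' : SL(2, ℤ)} (h : γ 1 = γ' 1) :
    ((γ' * γ⁻¹ : SL(2, ℤ)) : Matrix (Fin 2) (Fin 2) ℤ).trace ^ 2 = 4 := by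
  have h0 : γ 1 0 = γ' 1 0 := congrFun h 0
  have h1 : γ 1 1 = γ' 1 1 := congrFun h 1
  have d := γ.det_coe
  have d' := γ'.det_coe
  rw [Matrix.det_fin_two] at d d'
  rw [Matrix.SpecialLinearGroup.coe_mul, Matrix.SpecialLinearGroup.coe_inv, Matrix.adjugate_fin_two,
    Matrix.trace_fin_two]
  simp only [Matrix.mul_apply, Fin.sum_univ_two, Matrix.of_apply, Matrix.cons_val',
    Matrix.cons_val_zero, Matrix.cons_val_one, Matrix.cons_val_fin_one, Matrix.empty_val',
    Fin.isValue]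
  rw [← h0, ← h1] at d' ⊢
  have e : γ' 0 0 * γ 1 1 + γ' 0 1 * -γ 1 0 + (γ 1 0 * -γ 0 1 + γ 1 1 * γ 0 0) = 2 := by
    linear_combination d + d'
  rw [e]; norm_num

/-- The coefficient attached to a bottom row. -/
def rowWeight (φ : Γ →* ℂˣ) (v : BotRow Γ) : ℂ := ((φ v.2.choose)⁻¹ : ℂˣ)

theorem rowWeight_eq {φ : Γ →* ℂˣ} (hφ : IsParChar Γ φ) (v : BotRow Γ) {γ : Γ}
    (h : (γ : SL(2, ℤ)) 1 = v.1) : rowWeight φ v = ((φ γ)⁻¹ : ℂˣ) := by
  have hs := v.2.choose_spec
  have h1 := hφ (v.2.choose * γ⁻¹) (eq_shear_of_row_eq (h.trans hs.symm))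
  rw [map_mul, map_inv, mul_inv_eq_one] at h1
  rw [rowWeight, h1]

/-- The series. -/
def twistEis (φ : Γ →* ℂˣ) (τ : ℍ) : ℂ := ∑' v : BotRow Γ, rowWeight φ v * eisSummand 4 v τ

theorem norm_rowWeight_of_pow {φ : Γ →* ℂˣ} {n : ℕ} [NeZero n] (hn : φ ^ n = 1) (v : BotRow Γ) :
    ‖rowWeight φ v‖ = 1 := by
  refine Complex.norm_eq_one_of_pow_eq_one ?_ (NeZero.ne n)
  rw [rowWeight, ← Units.val_pow_eq_pow_val, inv_pow, ← MonoidHom.pow_apply, hn]
  simp

variable {n : ℕ} [NeZero n] {φ : Γ →* ℂˣ}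

/-- Right multiplication on bottom rows. -/
def rowMul (δ : Γ) : BotRow Γ ≃ BotRow Γ where
  toFun v := ⟨Matrix.vecMul v.1 ((δ : SL(2, ℤ)) : Matrix (Fin 2) (Fin 2) ℤ), by
    obtain ⟨γ, hγ⟩ := v.2
    exact ⟨γ * δ, by rw [← hγ]; rfl⟩⟩
  invFun v := ⟨Matrix.vecMul v.1 ((δ⁻¹ : Γ) : Matrix.SpecialLinearGroup (Fin 2) ℤ).1, by
    obtain ⟨γ, hγ⟩ := v.2
    exact ⟨γ * δ⁻¹, by rw [← hγ]; rfl⟩⟩
  left_inv v := Subtype.ext (by
    simp only [Matrix.vecMul_vecMul, ← Matrix.SpecialLinearGroup.coe_mul, ← Subgroup.coe_mul,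
      mul_inv_cancel, Subgroup.coe_one, Matrix.SpecialLinearGroup.coe_one, Matrix.vecMul_one])
  right_inv v := Subtype.ext (by
    simp only [Matrix.vecMul_vecMul, ← Matrix.SpecialLinearGroup.coe_mul, ← Subgroup.coe_mul,
      inv_mul_cancel, Subgroup.coe_one, Matrix.SpecialLinearGroup.coe_one, Matrix.vecMul_one])

omit [NeZero n] in
theorem twistEis_slash (hφ : IsParChar Γ φ) (δ : Γ) :
    twistEis φ ∣[(4 : ℤ)] (δ : SL(2, ℤ)) = fun τ => (φ δ : ℂ) * twistEis φ τ := by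
  funext τ
  rw [ModularForm.SL_slash_apply, twistEis, twistEis]
  simp only [eisSummand_SL2_apply]
  rw [← tsum_mul_right, ← tsum_mul_left, ← (rowMul δ).tsum_eq
    (fun v => (φ δ : ℂ) * (rowWeight φ v * eisSummand 4 v τ))]
  refine tsum_congr fun v => ?_
  obtain ⟨γ, hγ⟩ := v.2
  rw [rowWeight_eq hφ v hγ, rowWeight_eq hφ (rowMul δ v) (γ := γ * δ) (by
    show _ = Matrix.vecMul v.1 _
    rw [← hγ]; rfl), map_mul]
  have hd := UpperHalfPlane.denom_ne_zero ((δ : SL(2, ℤ)) : GL (Fin 2) ℝ) τ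
  simp only [rowMul, Equiv.coe_fn_mk, mul_inv_rev, Units.val_mul, Units.val_inv_eq_inv_val]
  have h1 := (φ δ).ne_zero
  rw [zpow_neg]
  field_simp

theorem norm_twistEis_slash_le (hn : φ ^ n = 1) (γ : SL(2, ℤ)) (τ : ℍ) :
    ‖(twistEis φ ∣[(4 : ℤ)] γ) τ‖ ≤ ∑' x : Fin 2 → ℤ, ‖eisSummand 4 x τ‖ := by
  rw [ModularForm.SL_slash_apply, twistEis]
  simp only [eisSummand_SL2_apply]
  have hd := UpperHalfPlane.denom_ne_zero (γ : GL (Fin 2) ℝ) τ
  rw [← tsum_mul_right]
  have e : ∀ v : BotRow Γ, rowWeight φ v * ((UpperHalfPlane.denom γ τ) ^ (4 : ℤ) *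
      eisSummand 4 (Matrix.vecMul v.1 γ.1) τ) * (UpperHalfPlane.denom γ τ) ^ (-(4 : ℤ)) =
      rowWeight φ v * eisSummand 4 (Matrix.vecMul v.1 γ.1) τ := fun v => by
    rw [zpow_neg]; field_simp
  simp only [e]
  have hinj : Function.Injective fun v : BotRow Γ => Matrix.vecMul v.1 γ.1 := fun v w h => by
    have := congrArg (fun x => Matrix.vecMul x (γ⁻¹ : SL(2, ℤ)).1) h
    simp only [Matrix.vecMul_vecMul, ← Matrix.SpecialLinearGroup.coe_mul, mul_inv_cancel,
      Matrix.SpecialLinearGroup.coe_one, Matrix.vecMul_one] at this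
    exact Subtype.ext this
  have hs := summable_norm_eisSummand (k := 4) (by norm_num) τ
  have hnorm : ∀ v : BotRow Γ, ‖rowWeight φ v * eisSummand 4 (Matrix.vecMul v.1 γ.1) τ‖ =
      ‖eisSummand 4 (Matrix.vecMul v.1 γ.1) τ‖ := fun v => by
    rw [norm_mul, norm_rowWeight_of_pow hn, one_mul]
  refine (norm_tsum_le_tsum_norm ?_).trans ?_
  · simp only [hnorm]; exact hs.comp_injective hinj
  · simp only [hnorm]
    exact tsum_comp_le_tsum_of_inj hs (fun _ => norm_nonneg _) hinj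

theorem tsum_norm_eisSummand_vadd (m : ℤ) (τ : ℍ) :
    ∑' x : Fin 2 → ℤ, ‖eisSummand 4 x ((m : ℝ) +ᵥ τ)‖ = ∑' x : Fin 2 → ℤ, ‖eisSummand 4 x τ‖ := by
  rw [← modular_T_zpow_smul]
  simp only [eisSummand_SL2_apply, norm_mul, norm_zpow]
  have hd : ‖UpperHalfPlane.denom ((ModularGroup.T ^ m : SL(2, ℤ)) : GL (Fin 2) ℝ)
      (τ : ℂ)‖ = 1 := by
    rw [ModularGroup.denom_apply]
    simp [ModularGroup.coe_T_zpow]
  simp only [hd, one_zpow, one_mul]
  let e : (Fin 2 → ℤ) ≃ (Fin 2 → ℤ) :=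
    { toFun := fun x => Matrix.vecMul x (ModularGroup.T ^ m : SL(2, ℤ)).1
      invFun := fun x => Matrix.vecMul x ((ModularGroup.T ^ m : SL(2, ℤ))⁻¹).1
      left_inv := fun x => by
        simp only [Matrix.vecMul_vecMul, ← Matrix.SpecialLinearGroup.coe_mul, mul_inv_cancel,
          Matrix.SpecialLinearGroup.coe_one, Matrix.vecMul_one]
      right_inv := fun x => by
        simp only [Matrix.vecMul_vecMul, ← Matrix.SpecialLinearGroup.coe_mul, inv_mul_cancel,
          Matrix.SpecialLinearGroup.coe_one, Matrix.vecMul_one] }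
  exact e.tsum_eq (fun x => ‖eisSummand 4 x τ‖)

theorem bdd_twistEis_slash (hn : φ ^ n = 1) (γ : SL(2, ℤ)) :
    IsBoundedAtImInfty (twistEis φ ∣[(4 : ℤ)] γ) := by
  rw [UpperHalfPlane.isBoundedAtImInfty_iff]
  refine ⟨∑' x : Fin 2 → ℤ, r ⟨⟨1, 2⟩, Nat.ofNat_pos⟩ ^ (-(4 : ℤ)) * ‖x‖ ^ (-(4 : ℤ)), 2,
    fun z hz => ?_⟩
  obtain ⟨m, hm⟩ := ModularGroup_T_zpow_mem_verticalStrip z one_pos
  refine (norm_twistEis_slash_le hn γ z).trans ?_
  rw [← tsum_norm_eisSummand_vadd m z, ← modular_T_zpow_smul]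
  simp only [Nat.cast_one, one_mul] at hm
  refine (summable_norm_eisSummand (by norm_num) _).tsum_le_tsum (fun x => ?_) ?_
  · simp only [eisSummand, norm_zpow]
    exact_mod_cast summand_bound_of_mem_verticalStrip (k := (4 : ℝ)) (by norm_num) x two_pos
      (verticalStrip_anti_right _ hz hm)
  · have h := (summable_one_div_norm_rpow (k := (4 : ℝ)) (by norm_num)).mul_left
      (r ⟨⟨1, 2⟩, Nat.ofNat_pos⟩ ^ (-(4 : ℝ)))
    exact_mod_cast h

theorem mdiff_twistEis (hn : φ ^ n = 1) : MDiff (twistEis φ) := by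
  rw [UpperHalfPlane.mdifferentiable_iff]
  have hsum : Summable fun x : BotRow Γ => ‖(x.1 : Fin 2 → ℤ)‖ ^ (-(4 : ℝ)) :=
    (summable_one_div_norm_rpow (k := (4 : ℝ)) (by norm_num)).subtype _
  have hloc : TendstoLocallyUniformly
      (fun (s : Finset (BotRow Γ)) (z : ℍ) => ∑ x ∈ s, rowWeight φ x * eisSummand 4 x.1 z)
      (twistEis φ) atTop := by
    rw [tendstoLocallyUniformly_iff_forall_isCompact]
    intro K hK
    obtain ⟨A, B, hB, hABK⟩ := subset_verticalStrip_of_isCompact hK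
    refine (tendstoUniformlyOn_tsum (hu := hsum.mul_left (r ⟨⟨A, B⟩, hB⟩ ^ (-(4 : ℝ))))
      (fun p z hz => ?_)).mono hABK
    rw [norm_mul, norm_rowWeight_of_pow hn, one_mul]
    simp only [eisSummand, norm_zpow]
    exact_mod_cast summand_bound_of_mem_verticalStrip (k := (4 : ℝ)) (by norm_num) p.1 hB hz
  have hC : TendstoLocallyUniformlyOn
      (fun (s : Finset (BotRow Γ)) (w : ℂ) =>
        ∑ x ∈ s, rowWeight φ x * eisSummand 4 x.1 (ofComplex w))
      (twistEis φ ∘ ofComplex) atTop {w : ℂ | 0 < w.im} :=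
    (tendstoLocallyUniformlyOn_univ.mpr hloc).comp ofComplex (Set.mapsTo_univ _ _)
      (fun w hw =>
        (UpperHalfPlane.contMDiffAt_ofComplex (n := 1) hw).continuousAt.continuousWithinAt)
  refine hC.differentiableOn (Eventually.of_forall fun s => ?_) isOpen_upperHalfPlaneSet
  refine DifferentiableOn.fun_sum fun x _ => ?_
  exact (eisSummand_extension_differentiableOn 4 x.1).const_mul _

/-- The twisted Eisenstein series is nonzero. -/
theorem twistEis_ne_zero (hn : φ ^ n = 1) (hφ : IsParChar Γ φ) (hneg : -1 ∈ Γ) :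
    twistEis φ ≠ 0 := by
  set y : ℕ → ℍ := fun i => ⟨((i : ℂ) + 1) * Complex.I, by simp; positivity⟩ with hy
  let v1 : BotRow Γ := ⟨![0, 1], 1, by funext i; fin_cases i <;> simp⟩
  let v2 : BotRow Γ := ⟨![0, -1], ⟨-1, hneg⟩, by funext i; fin_cases i <;> simp⟩
  set g : BotRow Γ → ℂ := fun v => if v.1 0 = 0 then rowWeight φ v * eisSummand 4 v.1 (y 0) else 0
  have hbound : ∀ (i : ℕ) (v : BotRow Γ),
      ‖rowWeight φ v * eisSummand 4 v.1 (y i)‖ ≤ ‖eisSummand 4 v.1 (y 0)‖ := by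
    intro i v
    rw [norm_mul, norm_rowWeight_of_pow hn, one_mul]
    simp only [eisSummand, zpow_neg, norm_inv, norm_zpow]
    by_cases h0 : v.1 0 = 0
    · simp [h0]
    have hpos : (0 : ℝ) < ‖(v.1 0 : ℂ) * ((y 0 : ℍ) : ℂ) + (v.1 1 : ℂ)‖ := by
      rw [norm_pos_iff]
      intro h
      have := congrArg Complex.im h
      simp [hy] at this
      exact h0 (by exact_mod_cast this)
    have hle : ‖(v.1 0 : ℂ) * ((y 0 : ℍ) : ℂ) + (v.1 1 : ℂ)‖ ≤
        ‖(v.1 0 : ℂ) * ((y i : ℍ) : ℂ) + (v.1 1 : ℂ)‖ := by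
      rw [Complex.norm_def, Complex.norm_def]
      refine Real.sqrt_le_sqrt ?_
      simp only [Complex.normSq_apply, hy]
      have h2 : (1 : ℝ) ≤ ((i : ℝ) + 1) * ((i : ℝ) + 1) := by
        nlinarith [show (0 : ℝ) ≤ i by positivity]
      simp only [Complex.add_re, Complex.mul_re, Complex.intCast_re, Complex.intCast_im,
        Complex.I_re, Complex.I_im, Complex.natCast_re, Complex.natCast_im, Complex.one_re,
        Complex.one_im, Complex.add_im, Complex.mul_im, Nat.cast_zero,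
        zero_add, mul_zero, mul_one, sub_zero, zero_mul, add_zero]
      nlinarith [mul_self_nonneg (v.1 0 : ℝ)]
    exact inv_anti₀ (zpow_pos hpos _) (zpow_le_zpow_left₀ (n := (4 : ℤ)) (by norm_num) hpos.le hle)
  have hlim : Tendsto (fun i => twistEis φ (y i)) atTop (𝓝 (∑' v, g v)) := by
    refine tendsto_tsum_of_dominated_convergence
      (bound := fun v : BotRow Γ => ‖eisSummand 4 v.1 (y 0)‖)
      ((summable_norm_eisSummand (by norm_num) _).subtype _) (fun v => ?_)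
      (Eventually.of_forall hbound)
    simp only [g]
    split_ifs with h0
    · simp only [eisSummand, h0, Int.cast_zero, zero_mul, zero_add]
      exact tendsto_const_nhds
    · rw [← mul_zero (rowWeight φ v)]
      refine Tendsto.const_mul _ ?_
      rw [tendsto_zero_iff_norm_tendsto_zero]
      simp only [eisSummand, zpow_neg, norm_inv, norm_zpow]
      refine Tendsto.inv_tendsto_atTop
        ((tendsto_zpow_atTop_atTop (n := (4 : ℤ)) (by norm_num)).comp ?_)
      refine tendsto_atTop_mono (f := fun i : ℕ => |(v.1 0 : ℝ)| * ((i : ℝ) + 1)) (fun i => ?_) ?_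
      · refine le_trans (le_of_eq ?_) (Complex.abs_im_le_norm _)
        simp [hy, abs_mul, abs_of_nonneg (show (0 : ℝ) ≤ i + 1 by positivity)]
      · exact Tendsto.const_mul_atTop (by simpa using h0)
          (tendsto_atTop_add_const_right _ 1 tendsto_natCast_atTop_atTop)
  have hrow : ∀ v : BotRow Γ, v.1 0 = 0 → v = v1 ∨ v = v2 := by
    intro v h0
    obtain ⟨γ, hγ⟩ := v.2
    have d := (γ : SL(2, ℤ)).det_coe
    rw [Matrix.det_fin_two, show (γ : SL(2, ℤ)) 1 0 = 0 by rw [← h0, ← hγ], mul_zero, sub_zero,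
      show (γ : SL(2, ℤ)) 1 1 = v.1 1 by rw [← hγ]] at d
    rcases Int.eq_one_or_neg_one_of_mul_eq_one' d with ⟨-, h⟩ | ⟨-, h⟩
    · left; exact Subtype.ext (funext fun i => by fin_cases i <;> simp [h0, h, v1])
    · right; exact Subtype.ext (funext fun i => by fin_cases i <;> simp [h0, h, v2])
  have hsum : ∑' v, g v = 2 := by
    classical
    rw [tsum_eq_sum (s := {v1, v2}) (fun v hv => by
      simp only [Finset.mem_insert, Finset.mem_singleton, not_or] at hv
      simp only [g]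
      rw [if_neg fun h => (hrow v h).elim hv.1 hv.2])]
    have hne : v1 ≠ v2 := fun h => by
      have := congrFun (congrArg Subtype.val h) 1
      simp [v1, v2] at this
    rw [Finset.sum_pair hne]
    simp only [g]
    rw [rowWeight_eq hφ v1 (γ := 1) (by funext i; fin_cases i <;> simp [v1]),
      rowWeight_eq hφ v2 (γ := ⟨-1, hneg⟩) (by funext i; fin_cases i <;> simp [v2]),
      hφ ⟨-1, hneg⟩ (by simp)]
    norm_num [eisSummand, v1, v2]
  intro h
  rw [hsum] at hlim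
  simp only [h, Pi.zero_apply] at hlim
  exact two_ne_zero (tendsto_nhds_unique hlim tendsto_const_nhds)

/-- The twisted Eisenstein series is a form of weight `4` with multiplier `φ`. -/
theorem isTwist_twistEis (hn : φ ^ n = 1) (hφ : IsParChar Γ φ) :
    IsTwist Γ 4 φ (twistEis φ) :=
  ⟨mdiff_twistEis hn, twistEis_slash hφ, bdd_twistEis_slash hn⟩

end FermatAgent.ES
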